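/-
T1G TG-KRON part C (helper7), step 5: **the expansions at the cusps `γ ∞`, `γ ∈ Γ₀(M)`, commute with
the coefficientwise action of field automorphisms**: for every Galois package
`Gal : TgGalois K M ζ`, every `σ : K →+* K`, `γ ∈ Γ₀(M)` and `y ∈ TgOne K M ζ`,
`σ (Gal.tgEmb γ y) = Gal.tgEmb γ (σ y)`.  (On the generators `ν_{a,a'}` the element `γ` acts through
`a ↦ a d` and `σ` through `a ↦ a c`, `σ ζ = ζ^c`; the two commute.)  This is the Galois equivariance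
`D σ = σ D` of the diamond operators on functions.
-/
import Mathlib
import Fermat.Agent.Lib.T1G.Model.Cusps
import Fermat.Agent.Lib.T1G.Model.Rat

set_option autoImplicit false
set_option linter.unusedSectionVars false
set_option linter.style.haveILetI false
set_option linter.unusedVariables false

open HahnSeries ModularCurve Fermat.Agent.Igusa Matrix MatrixGroups CongruenceSubgroup

noncomputable section

namespace Fermat.Agent.T1G

variable {K : Type*} [Field K] {M : ℕ} [NeZero M] {ζ : Kˣ}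

theorem tgks_isPrimitiveRoot_map (σ : K →+* K) (hζ : IsPrimitiveRoot ζ M) :
    IsPrimitiveRoot (Units.map (σ : K →* K) ζ) M :=
  hζ.map_of_injective (Units.map_injective σ.injective)

/-- `TgOne` is stable under the coefficientwise action of field endomorphisms -/
theorem tgks_coeffMap_mem (σ : K →+* K) (hζ : IsPrimitiveRoot ζ M) {x : LaurentSeries K}
    (hx : x ∈ TgOne K M ζ) : coeffMap σ x ∈ TgOne K M ζ := by
  have h1 := tgr_coeffMap_mem_tgOne σ hζ hx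
  rwa [tgr_tgOne_eq_of_primitive hζ (tgks_isPrimitiveRoot_map σ hζ)] at h1

/-- the exponent `c` with `σ ζ = ζ ^ c` -/
theorem tgks_exists_pow (σ : K →+* K) (hζ : IsPrimitiveRoot ζ M) :
    ∃ c : ℕ, ζ ^ c = Units.map (σ : K →* K) ζ := by
  have h1 : IsPrimitiveRoot ((ζ : Kˣ) : K) M := IsPrimitiveRoot.coe_units_iff.mpr hζ
  have h2 : ((Units.map (σ : K →* K) ζ : Kˣ) : K) ^ M = 1 := by
    rw [← Units.val_pow_eq_pow_val, ← map_pow, hζ.pow_eq_one, map_one, Units.val_one]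
  obtain ⟨c, -, hc⟩ := h1.eq_pow_of_pow_eq_one h2
  exact ⟨c, Units.ext (by rw [Units.val_pow_eq_pow_val, hc])⟩

variable (Gal : TgGalois K M ζ)

/-- the expansion of `j(q^d)` at every cusp `γ ∞`, `γ ∈ Γ₀(M)` -/
theorem tgks_tgEmb_jd {γ : SL(2, ℤ)} (hγ : γ ∈ Gamma0 M) {d : ℕ} [NeZero d] (hd : d ∣ M)
    (hx : qExpand K d (jqModC K) ∈ TgOne K M ζ) :
    Gal.tgEmb γ ⟨qExpand K d (jqModC K), hx⟩ = qExpand K (M * d) (jqModC K) := by
  have h1 : tgOneIncl K M ζ ⟨qExpand K d (jqModC K), hx⟩ = tgJd K M ζ hd := by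
    apply Subtype.ext
    rw [coe_tgOneIncl]
    show qExpand K M (qExpand K d (jqModC K)) = qExpand K (M * d) (jqModC K)
    rw [qExpand_qExpand]
  rw [TgGalois.tgEmb_apply, h1, Gal.ρ_jd γ hγ hd]
  rfl

/-- the expansion of `ν_{a,a'}` at the cusp `γ ∞`, `γ ∈ Γ₀(M)` -/
theorem tgks_tgEmb_nu1 {γ : SL(2, ℤ)} (hγ : γ ∈ Gamma0 M) {a a' : ZMod M} (ha : a ≠ 0)
    (ha' : a' ≠ 0) (hx : tgNu1 K M ζ a a' ∈ TgOne K M ζ) :
    Gal.tgEmb γ ⟨tgNu1 K M ζ a a', hx⟩
      = tgNu K M ζ (0, a * (((γ⁻¹ : SL(2, ℤ)) 1 1 : ℤ) : ZMod M))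
          (0, a' * (((γ⁻¹ : SL(2, ℤ)) 1 1 : ℤ) : ZMod M)) := by
  have h1 : tgOneIncl K M ζ ⟨tgNu1 K M ζ a a', hx⟩
      = tgNuE K M ζ (tg_zero_ne_zero M ha) (tg_zero_ne_zero M ha') := by
    apply Subtype.ext
    rw [coe_tgOneIncl]
    show qExpand K M (tgNu1 K M ζ a a') = tgNu K M ζ (0, a) (0, a')
    rw [qExpand_tgNu1]
  have hinv : γ⁻¹ ∈ Gamma0 M := (Gamma0 M).inv_mem hγ
  rw [TgGalois.tgEmb_apply, h1, Gal.ρ_nu_val γ, tgAct_zero_of_mem_Gamma0 M hinv,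
    tgAct_zero_of_mem_Gamma0 M hinv]

theorem tgks_isUnit_d {γ : SL(2, ℤ)} (hγ : γ ∈ Gamma0 M) :
    IsUnit (((γ 1 1 : ℤ)) : ZMod M) := by
  have hdet := congrArg (Int.cast : ℤ → ZMod M) (tgg_det_eq γ)
  push_cast at hdet
  rw [Gamma0_mem.mp hγ, mul_zero, sub_zero] at hdet
  exact IsUnit.of_mul_eq_one _ (by rw [mul_comm]; exact hdet)

/-- **the expansions at the cusps `γ ∞`, `γ ∈ Γ₀(M)`, commute with the coefficientwise action** -/
theorem tgks_tgEmb_sigma (σ : K →+* K) (hζ : IsPrimitiveRoot ζ M) {γ : SL(2, ℤ)}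
    (hγ : γ ∈ Gamma0 M) (y : ↥(TgOne K M ζ)) :
    coeffMap σ (Gal.tgEmb γ y)
      = Gal.tgEmb γ ⟨coeffMap σ (y : LaurentSeries K), tgks_coeffMap_mem σ hζ y.2⟩ := by
  obtain ⟨y, hy⟩ := y
  have hy' : y ∈ IntermediateField.adjoin K (divisorExpansionsC K M ∪ tgNu1Set K M ζ) := hy
  have key : ∀ (x : LaurentSeries K)
      (hx : x ∈ IntermediateField.adjoin K (divisorExpansionsC K M ∪ tgNu1Set K M ζ)),
      coeffMap σ (Gal.tgEmb γ ⟨x, hx⟩)
        = Gal.tgEmb γ ⟨coeffMap σ x, tgks_coeffMap_mem σ hζ hx⟩ := by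
    intro x hx
    induction hx using IntermediateField.adjoin_induction with
    | mem x hx =>
      rcases hx with ⟨d, hd0, hd, rfl⟩ | ⟨a, a', ha, ha', rfl⟩
      · haveI := hd0
        have e1 : coeffMap σ (qExpand K d (jqModC K)) = qExpand K d (jqModC K) := by
          rw [coeffMap_qExpand, coeffMap_jqModC]
        rw [tgks_tgEmb_jd Gal hγ hd, coeffMap_qExpand, coeffMap_jqModC]
        have e2 : (⟨coeffMap σ (qExpand K d (jqModC K)), tgks_coeffMap_mem σ hζ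
            (IntermediateField.subset_adjoin K _ (Or.inl ⟨d, hd0, hd, rfl⟩))⟩ : ↥(TgOne K M ζ))
            = ⟨qExpand K d (jqModC K),
              IntermediateField.subset_adjoin K _ (Or.inl ⟨d, hd0, hd, rfl⟩)⟩ :=
          Subtype.ext e1
        rw [e2, tgks_tgEmb_jd Gal hγ hd]
      · obtain ⟨c, hc⟩ := tgks_exists_pow σ hζ
        have hcprim : IsPrimitiveRoot (ζ ^ c) M := by
          rw [hc]; exact tgks_isPrimitiveRoot_map σ hζ
        have hcop : c.Coprime M :=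
          (hζ.pow_iff_coprime (Nat.pos_of_ne_zero (NeZero.ne M)) c).mp hcprim
        have hcu : IsUnit (c : ZMod M) := (ZMod.isUnit_iff_coprime c M).mpr hcop
        have hdu := tgks_isUnit_d (M := M) ((Gamma0 M).inv_mem hγ)
        set d' : ZMod M := (((γ⁻¹ : SL(2, ℤ)) 1 1 : ℤ) : ZMod M) with hd'
        have had : a * d' ≠ 0 := by rwa [Ne, hdu.mul_left_eq_zero]
        have had' : a' * d' ≠ 0 := by rwa [Ne, hdu.mul_left_eq_zero]
        have hac : a * (c : ZMod M) ≠ 0 := by rwa [Ne, hcu.mul_left_eq_zero]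
        have hac' : a' * (c : ZMod M) ≠ 0 := by rwa [Ne, hcu.mul_left_eq_zero]
        have e1 : coeffMap σ (tgNu1 K M ζ a a') = tgNu1 K M ζ (a * c) (a' * c) := by
          rw [coeffMap_tgNu1 σ M ζ a a' (tgr_isUnit_one_sub hζ ha) (tgr_isUnit_one_sub hζ ha'),
            ← hc, tgNu1_pow K M ζ hζ.pow_eq_one]
        have e2 : (⟨coeffMap σ (tgNu1 K M ζ a a'), tgks_coeffMap_mem σ hζ
            (IntermediateField.subset_adjoin K _ (Or.inr ⟨a, a', ha, ha', rfl⟩))⟩ : ↥(TgOne K M ζ))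
            = ⟨tgNu1 K M ζ (a * c) (a' * c), tgNu1_mem_tgOne K M ζ hac hac'⟩ :=
          Subtype.ext e1
        rw [e2, tgks_tgEmb_nu1 Gal hγ ha ha', tgks_tgEmb_nu1 Gal hγ hac hac',
          coeffMap_tgNu σ M ζ _ _ (fun _ => tgr_isUnit_one_sub hζ had)
            (fun _ => tgr_isUnit_one_sub hζ had'),
          ← hc, tgNu_pow K M ζ hζ.pow_eq_one]
        simp only [mul_right_comm]
    | algebraMap c =>
      have e1 : (⟨algebraMap K (LaurentSeries K) c, (IntermediateField.adjoin K _).algebraMap_mem c⟩ :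
          ↥(TgOne K M ζ)) = algebraMap K ↥(TgOne K M ζ) c := rfl
      have e2 : (⟨coeffMap σ (algebraMap K (LaurentSeries K) c), tgks_coeffMap_mem σ hζ
          ((IntermediateField.adjoin K _).algebraMap_mem c)⟩ : ↥(TgOne K M ζ))
          = algebraMap K ↥(TgOne K M ζ) (σ c) :=
        Subtype.ext (T1.tbi_coeffMap_algebraMap σ c)
      rw [e1, e2, AlgHom.commutes, AlgHom.commutes, T1.tbi_coeffMap_algebraMap]
    | add x y hx hy ihx ihy =>
      have e1 : (⟨x + y, add_mem hx hy⟩ : ↥(TgOne K M ζ)) = ⟨x, hx⟩ + ⟨y, hy⟩ := rfl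
      have e2 : (⟨coeffMap σ (x + y), tgks_coeffMap_mem σ hζ (add_mem hx hy)⟩ : ↥(TgOne K M ζ))
          = ⟨coeffMap σ x, tgks_coeffMap_mem σ hζ hx⟩ + ⟨coeffMap σ y, tgks_coeffMap_mem σ hζ hy⟩ :=
        Subtype.ext (map_add _ _ _)
      rw [e1, e2, map_add, map_add, map_add, ihx, ihy]
    | inv x hx ihx =>
      have e1 : (⟨x⁻¹, inv_mem hx⟩ : ↥(TgOne K M ζ)) = (⟨x, hx⟩ : ↥(TgOne K M ζ))⁻¹ := rfl
      have e2 : (⟨coeffMap σ x⁻¹, tgks_coeffMap_mem σ hζ (inv_mem hx)⟩ : ↥(TgOne K M ζ))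
          = (⟨coeffMap σ x, tgks_coeffMap_mem σ hζ hx⟩ : ↥(TgOne K M ζ))⁻¹ :=
        Subtype.ext (map_inv₀ _ _)
      rw [e1, e2, map_inv₀, map_inv₀, map_inv₀, ihx]
    | mul x y hx hy ihx ihy =>
      have e1 : (⟨x * y, mul_mem hx hy⟩ : ↥(TgOne K M ζ)) = ⟨x, hx⟩ * ⟨y, hy⟩ := rfl
      have e2 : (⟨coeffMap σ (x * y), tgks_coeffMap_mem σ hζ (mul_mem hx hy)⟩ : ↥(TgOne K M ζ))
          = ⟨coeffMap σ x, tgks_coeffMap_mem σ hζ hx⟩ * ⟨coeffMap σ y, tgks_coeffMap_mem σ hζ hy⟩ :=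
        Subtype.ext (map_mul _ _ _)
      rw [e1, e2, map_mul, map_mul, map_mul, ihx, ihy]
  exact key y hy'

end Fermat.Agent.T1G
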