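/-
T1G TG-KRON part C (helper7), step 3: **existence of the functional Hecke operators, in analytic
form, for every generating system**.  For a generating system `G` of level `h`, a subgroup `Γ`
with `ker (tgxRep G) ≤ ±Γ`, a coset system `S` for `Γ` all of whose representatives have
determinant dividing `l`, and a `Γ`-invariant element `Y` of `TgxField G`, there is a `Γ`-invariant
`Z ∈ TgxField G` with `Z = ∏ i, Y ∘ α_i` as meromorphic functions on `ℍ`.

Proof: the product lives in the Hecke level `TgxField (tgxhGens G l)`, is invariant under `Γ`,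
hence under `ker (tgxRep G)`, hence (Galois theory) comes from `TgxField G`.
-/
import Mathlib
import Fermat.Agent.Lib.T1G.GMod.HeckeGens
import Fermat.Agent.Lib.T1G.Model.GaloisGen

set_option autoImplicit false
set_option linter.unusedSectionVars false
set_option linter.style.haveILetI false
set_option linter.unusedVariables false

namespace Fermat.Agent.T1G

open Fermat.Agent.S24Lib Fermat.Agent.T1 ModularCurve
open UpperHalfPlane Matrix MatrixGroups CongruenceSubgroup
open Fermat.Agent.S22Lib (intGL intGL_det_pos)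
open Fermat.Agent.ES (IsQLaurentable qLaurent)

/-! ### The abstract descent -/

section Abstract

variable {K E E' Γ₀ : Type*} [Field K] [Field E] [Field E'] [Algebra K E] [Algebra K E']
  [Group Γ₀]

/-- **Galois descent along an equivariant embedding**: an element of `E'` fixed by the kernel of
the action on `E` comes from `E` -/
theorem tgkh_descend (ρ : Γ₀ →* (E ≃ₐ[K] E)) (ρ' : Γ₀ →* (E' ≃ₐ[K] E')) (hfin : Finite ρ'.range)
    (ε : E →ₐ[K] E') (hε : ∀ γ x, ρ' γ (ε x) = ε (ρ γ x))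
    (hfix : IntermediateField.fixedField ρ'.range ≤ ε.fieldRange)
    (Z' : E') (hZ' : ∀ γ ∈ ρ.ker, ρ' γ Z' = Z') : ∃ Z, ε Z = Z' := by
  have hrange : IntermediateField.adjoin K (Set.range ε) = ε.fieldRange := by
    apply le_antisymm
    · rw [IntermediateField.adjoin_le_iff]
      rintro _ ⟨x, rfl⟩
      exact ⟨x, rfl⟩
    · rintro _ ⟨x, rfl⟩
      exact IntermediateField.subset_adjoin K _ ⟨x, rfl⟩
  have key := tgn_adjoin_eq_fixedField_map ρ' hfin ρ.ker (Set.range ε)
    (by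
      rintro γ hγ _ ⟨x, rfl⟩
      rw [hε, MonoidHom.mem_ker.mp hγ, AlgEquiv.one_apply])
    (by
      intro γ hγ
      rw [MonoidHom.mem_ker]
      ext x
      apply ε.toRingHom.injective
      show ε (ρ γ x) = ε x
      rw [← hε]
      exact hγ _ ⟨x, rfl⟩)
    (by rw [hrange]; exact hfix)
  have hmem : Z' ∈ IntermediateField.fixedField (ρ.ker.map ρ') := by
    rintro ⟨g, γ, hγ, rfl⟩
    exact hZ' γ hγ
  rw [← key, hrange] at hmem
  obtain ⟨Z, hZ⟩ := hmem
  exact ⟨Z, hZ⟩

end Abstract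

/-! ### Invariance of products over coset systems -/

theorem tgkh_isInv_iff_hasChar_one {Γ : Subgroup SL(2, ℤ)} (g : tdmMer) :
    tdmIsInv Γ g ↔ tdmHasChar Γ g 1 := by
  constructor
  · intro hg γ
    rw [hg γ, MonoidHom.one_apply, Units.val_one, one_smul]
  · intro hg γ
    rw [hg γ, MonoidHom.one_apply, Units.val_one, one_smul]

/-- the product over a coset system of an invariant function is invariant -/
theorem tgkh_prodFn_isInv {Γ : Subgroup SL(2, ℤ)} {ι : Type} [Fintype ι] (S : tdmCosetSys Γ ι)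
    {g : tdmMer} (hg : tdmIsInv Γ g) : tdmIsInv Γ (S.prodFn g) := by
  rw [tgkh_isInv_iff_hasChar_one] at hg ⊢
  have h1 := S.prodFn_hasChar hg
  rwa [map_one] at h1

theorem tgkh_intGL_one (h1 : 0 < (1 : Matrix (Fin 2) (Fin 2) ℤ).det) : intGL 1 h1 = 1 := by
  apply Units.ext
  rw [Fermat.Agent.S22Lib.intGL_val]
  ext i j
  simp [Matrix.one_apply]

theorem tgkh_one_det_pos : 0 < (1 : Matrix (Fin 2) (Fin 2) ℤ).det := by
  rw [Matrix.det_one]; exact one_pos

theorem tgkh_compInt_one (g : tdmMer) : tdmCompInt 1 tgkh_one_det_pos g = g := by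
  rw [tdmCompInt, tdmComp_congr (tgkh_intGL_one tgkh_one_det_pos) _ tdm_det_one_pos, tdmComp_one]
  rfl

variable {𝕜 : Type} [Field 𝕜] [IsAlgClosed 𝕜] [Algebra 𝕜 ℂ] {h : ℕ} [NeZero h]
  (G : TgxGens 𝕜 h)

/-- invariance in `TgxField G` versus invariance of the meromorphic function -/
theorem tgkh_isInv_toMer (Γ : Subgroup SL(2, ℤ)) (Y : TgxField G) :
    (∀ γ ∈ Γ, tgxRep G γ Y = Y) ↔ tdmIsInv Γ (tgxToMer G Y) := by
  constructor
  · intro hY γ
    have h1 := tgxToMer_rep G (γ : SL(2, ℤ))⁻¹ Y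
    rw [inv_inv, hY _ (Γ.inv_mem γ.2)] at h1
    exact h1.symm
  · intro hY γ hγ
    apply tgxToMer_injective G
    rw [tgxToMer_rep]
    exact hY ⟨γ⁻¹, Γ.inv_mem hγ⟩

section Level

variable (l : ℕ) [NeZero l]

/-- the inclusion of `TgxField G` into its Hecke level -/
noncomputable def tgkhIncl : TgxField G →ₐ[𝕜] TgxField (tgxhGens G l) :=
  tgxhComp (tgxhMaps_hecke G l 1 tgkh_one_det_pos (by rw [Matrix.det_one]; exact one_dvd _))

theorem tgxToMer_tgkhIncl (x : TgxField G) :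
    tgxToMer (tgxhGens G l) (tgkhIncl G l x) = tgxToMer G x := by
  rw [tgkhIncl, tgxToMer_tgxhComp, tgkh_compInt_one]

theorem tgxRep_tgkhIncl (γ : SL(2, ℤ)) (x : TgxField G) :
    tgxRep (tgxhGens G l) γ (tgkhIncl G l x) = tgkhIncl G l (tgxRep G γ x) := by
  apply tgxToMer_injective (tgxhGens G l)
  rw [tgxToMer_rep, tgxToMer_tgkhIncl, tgxToMer_tgkhIncl, tgxToMer_rep]

theorem tgkhIncl_jL : tgkhIncl G l (tgxJL G) = tgxJL (tgxhGens G l) := by
  apply tgxToMer_injective (tgxhGens G l)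
  rw [tgxToMer_tgkhIncl, tgxJL, tgxJL, tgxToMer_algebraMap, tgxToMer_algebraMap]
  rfl

end Level

/-- **existence of the functional Hecke operators** in analytic form -/
theorem tgkh_exists_hecke (l : ℕ) [NeZero l] (Γ : Subgroup SL(2, ℤ))
    (hker : ∀ γ : SL(2, ℤ), tgxRep G γ = 1 → γ ∈ Γ ∨ -γ ∈ Γ)
    {ι : Type} [Fintype ι] (S : tdmCosetSys Γ ι) (hdet : ∀ i, (S.rep i).det ∣ (l : ℤ))
    (Y : TgxField G) (hY : ∀ γ ∈ Γ, tgxRep G γ Y = Y) :
    ∃ Z : TgxField G, (∀ γ ∈ Γ, tgxRep G γ Z = Z) ∧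
      tgxToMer G Z = S.prodFn (tgxToMer G Y) := by
  classical
  set G' := tgxhGens G l with hG'
  set Z' : TgxField G' :=
    ∏ i, tgxhComp (tgxhMaps_hecke G l (S.rep i) (S.det_pos i) (hdet i)) Y with hZ'
  have hZ'mer : tgxToMer G' Z' = S.prodFn (tgxToMer G Y) := by
    rw [hZ', map_prod, tdmCosetSys.prodFn_apply]
    exact Finset.prod_congr rfl (fun i _ => tgxToMer_tgxhComp _ Y)
  have hinv : tdmIsInv Γ (S.prodFn (tgxToMer G Y)) :=
    tgkh_prodFn_isInv S ((tgkh_isInv_toMer G Γ Y).mp hY)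
  have hZ'Γ : ∀ γ ∈ Γ, tgxRep G' γ Z' = Z' := by
    rw [tgkh_isInv_toMer G' Γ Z', hZ'mer]
    exact hinv
  have hneg : ∀ γ : SL(2, ℤ), tgxRep G' (-γ) = tgxRep G' γ := by
    intro γ
    have : -γ = -1 * γ := by rw [neg_mul, one_mul]
    rw [this, map_mul, tgxRep_neg_one, one_mul]
  obtain ⟨Z, hZ⟩ := tgkh_descend (tgxRep G) (tgxRep G') (tgx_finite_range_rep G')
    (tgkhIncl G l) (fun γ x => tgxRep_tgkhIncl G l γ x)
    (by
      rw [tgx_fixedField_rep, IntermediateField.adjoin_le_iff]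
      rintro _ rfl
      exact ⟨tgxJL G, tgkhIncl_jL G l⟩)
    Z' (by
      intro γ hγ
      rcases hker γ (MonoidHom.mem_ker.mp hγ) with h1 | h1
      · exact hZ'Γ γ h1
      · rw [← hneg]
        exact hZ'Γ _ h1)
  have hZmer : tgxToMer G Z = S.prodFn (tgxToMer G Y) := by
    rw [← tgxToMer_tgkhIncl G l Z, hZ, hZ'mer]
  refine ⟨Z, ?_, hZmer⟩
  rw [tgkh_isInv_toMer, hZmer]
  exact hinv

end Fermat.Agent.T1G
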