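/-
T1G TG-KRON part C (helper7), step 4: **the `q`-expansion identities of the functional Hecke
operators**, generic in the generating system.  If `Y, DY, TY ∈ TgxField G` have `q_h`-expansions
`y(q_h^h), dy(q_h^h), ty(q_h^h)` (`y, dy, ty ∈ 𝕜((q))`) and, as meromorphic functions,
`TY = DY ∘ diag(l,1) · ∏_{b<l} Y ∘ (1 b; 0 l)`, then
`ty(q^l) = dy(q^{l²}) ∏_{b<l} y(ζ^b q)` for every primitive `l`-th root of unity `ζ ∈ 𝕜`.
Similarly for `U_l` (no `D` factor).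
-/
import Mathlib
import Fermat.Agent.Lib.T1G.Kron.HeckeEx
import Fermat.Agent.Lib.T1.Kron.Hecke

set_option autoImplicit false
set_option linter.unusedSectionVars false
set_option linter.style.haveILetI false
set_option linter.unusedVariables false

namespace Fermat.Agent.T1G

open Fermat.Agent.S24Lib Fermat.Agent.T1 ModularCurve
open UpperHalfPlane Matrix MatrixGroups CongruenceSubgroup
open Fermat.Agent.S22Lib (intGL intGL_det_pos)
open Fermat.Agent.ES (IsQLaurentable qLaurent)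

variable {𝕜 : Type} [Field 𝕜] [IsAlgClosed 𝕜] [Algebra 𝕜 ℂ] {h : ℕ} [NeZero h]
  (G : TgxGens 𝕜 h)

theorem tgxhComp_congr {h' : ℕ} [NeZero h'] {G' : TgxGens 𝕜 h'}
    {A B : Matrix (Fin 2) (Fin 2) ℤ} (e : A = B) {hA : 0 < A.det} {hB : 0 < B.det}
    (hmA : TgxhMaps G G' A hA) (hmB : TgxhMaps G G' B hB) (x : TgxField G) :
    tgxhComp hmA x = tgxhComp hmB x := by
  subst e; rfl

section Level

variable (l : ℕ) [NeZero l]

theorem tgkq_det_diag : (!![(l : ℤ), 0; 0, 1] : Matrix (Fin 2) (Fin 2) ℤ).det = l := by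
  rw [Fermat.Agent.S22Lib.upper_det, mul_one]

theorem tgkq_det_diag_pos : 0 < (!![(l : ℤ), 0; 0, 1] : Matrix (Fin 2) (Fin 2) ℤ).det := by
  rw [tgkq_det_diag]; exact_mod_cast Nat.pos_of_ne_zero (NeZero.ne l)

theorem tgkq_det_up (b : ℤ) : (!![1, b; 0, (l : ℤ)] : Matrix (Fin 2) (Fin 2) ℤ).det = l := by
  rw [Fermat.Agent.S22Lib.upper_det, one_mul]

theorem tgkq_det_up_pos (b : ℤ) : 0 < (!![1, b; 0, (l : ℤ)] : Matrix (Fin 2) (Fin 2) ℤ).det := by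
  rw [tgkq_det_up]; exact_mod_cast Nat.pos_of_ne_zero (NeZero.ne l)

/-- `x ↦ x ∘ diag(l, 1)` into the Hecke level -/
noncomputable def tgkqDiag : TgxField G →ₐ[𝕜] TgxField (tgxhGens G l) :=
  tgxhComp (tgxhMaps_hecke G l !![(l : ℤ), 0; 0, 1] (tgkq_det_diag_pos l)
    (by rw [tgkq_det_diag]))

/-- `x ↦ x ∘ (1 b; 0 l)` into the Hecke level -/
noncomputable def tgkqUp (b : ℤ) : TgxField G →ₐ[𝕜] TgxField (tgxhGens G l) :=
  tgxhComp (tgxhMaps_hecke G l !![1, b; 0, (l : ℤ)] (tgkq_det_up_pos l b)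
    (by rw [tgkq_det_up]))

theorem tgxToMer_tgkqDiag (x : TgxField G) :
    tgxToMer (tgxhGens G l) (tgkqDiag G l x)
      = tdmCompInt !![(l : ℤ), 0; 0, 1] (tgkq_det_diag_pos l) (tgxToMer G x) :=
  tgxToMer_tgxhComp _ x

theorem tgxToMer_tgkqUp (b : ℤ) (x : TgxField G) :
    tgxToMer (tgxhGens G l) (tgkqUp G l b x)
      = tdmCompInt !![1, b; 0, (l : ℤ)] (tgkq_det_up_pos l b) (tgxToMer G x) :=
  tgxToMer_tgxhComp _ x

theorem tgkq_expUnit_zero (d : ℤ) : tkrExpUnit 0 d = 1 := by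
  apply Units.ext
  simp

/-- the `q`-expansion of the inclusion into the Hecke level -/
theorem tgxFieldQL_tgkhIncl (x : TgxField G) :
    tgxFieldQL (tgxhGens G l) (tgkhIncl G l x) = qExpand ℂ l (tgxFieldQL G x) := by
  have h1 : 0 < (!![1, 0; 0, 1] : Matrix (Fin 2) (Fin 2) ℤ).det := by
    rw [Matrix.det_fin_two_of]; norm_num
  have hm : TgxhMaps G (tgxhGens G l) !![1, 0; 0, 1] h1 :=
    tgxhMaps_hecke G l _ h1 (by rw [Matrix.det_fin_two_of]; norm_num)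
  have e1 : (1 : Matrix (Fin 2) (Fin 2) ℤ) = !![1, 0; 0, 1] := Matrix.one_fin_two
  rw [tgkhIncl, tgxhComp_congr G e1 _ hm,
    tgxFieldQL_tgxhComp_upper 1 0 1 one_pos h1 l (by push_cast; ring) hm x, tgkq_expUnit_zero,
    tkrTw_one_apply]

theorem tgxFieldQL_tgkqDiag (x : TgxField G) :
    tgxFieldQL (tgxhGens G l) (tgkqDiag G l x) = qExpand ℂ (l * l) (tgxFieldQL G x) := by
  rw [tgkqDiag,
    tgxFieldQL_tgxhComp_upper (l : ℤ) 0 1 one_pos (tgkq_det_diag_pos l) (l * l)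
      (by push_cast; ring) _ x, tgkq_expUnit_zero, tkrTw_one_apply]

theorem tgxFieldQL_tgkqUp (b : ℤ) (x : TgxField G) :
    tgxFieldQL (tgxhGens G l) (tgkqUp G l b x)
      = tkrTw (tkrExpUnit b ((l : ℤ) * h)) (tgxFieldQL G x) := by
  have hl : (0 : ℤ) < l := by exact_mod_cast Nat.pos_of_ne_zero (NeZero.ne l)
  rw [tgkqUp,
    tgxFieldQL_tgxhComp_upper 1 b (l : ℤ) hl (tgkq_det_up_pos l b) 1
      (by push_cast; ring) _ x, qExpand_one_apply]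

/-- `exp(2πi b/(l h))^h = exp(2πi/l)^b` -/
theorem tgkq_expUnit_pow (b : ℕ) :
    tkrExpUnit (b : ℤ) ((l : ℤ) * h) ^ h = tkrExpUnit 1 (l : ℤ) ^ b := by
  apply Units.ext
  rw [Units.val_pow_eq_pow_val, Units.val_pow_eq_pow_val, tkrExpUnit_val, tkrExpUnit_val,
    ← Complex.exp_nat_mul, ← Complex.exp_nat_mul]
  congr 1
  have hh : (h : ℂ) ≠ 0 := by exact_mod_cast NeZero.ne h
  have hl : (l : ℂ) ≠ 0 := by exact_mod_cast NeZero.ne l
  push_cast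
  field_simp

theorem tgkq_isPrimitiveRoot_expUnit :
    IsPrimitiveRoot ((tkrExpUnit 1 (l : ℤ) : ℂˣ) : ℂ) l := by
  rw [tkrExpUnit_val]
  have : (2 * Real.pi * Complex.I * ((1 : ℤ) : ℂ) / ((l : ℤ) : ℂ))
      = 2 * Real.pi * Complex.I / (l : ℂ) := by
    push_cast; ring
  rw [this]
  exact Complex.isPrimitiveRoot_exp l (NeZero.ne l)

/-- the `q`-expansion of `∏_{b<l} Y ∘ (1 b; 0 l)` -/
theorem tgxFieldQL_prod_tgkqUp {ζ : 𝕜ˣ} (hζ : IsPrimitiveRoot (ζ : 𝕜) l) (Y : TgxField G)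
    (y : LaurentSeries 𝕜)
    (hY : tgxFieldQL G Y = qExpand ℂ h (coeffMap (algebraMap 𝕜 ℂ) y)) :
    tgxFieldQL (tgxhGens G l) (∏ b : Fin l, tgkqUp G l ((b : ℕ) : ℤ) Y)
      = qExpand ℂ h (coeffMap (algebraMap 𝕜 ℂ) (∏ b ∈ Finset.range l, tkrTw (ζ ^ b) y)) := by
  rw [map_prod, map_prod, map_prod, Finset.prod_range (fun b => qExpand ℂ h
    (coeffMap (algebraMap 𝕜 ℂ) (tkrTw (ζ ^ b) y)))]
  have hζC : IsPrimitiveRoot ((Units.map ((algebraMap 𝕜 ℂ : 𝕜 →+* ℂ) : 𝕜 →* ℂ) ζ : ℂˣ) : ℂ) l :=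
    hζ.map_of_injective (algebraMap 𝕜 ℂ).injective
  have h1 : ∀ b : Fin l, tgxFieldQL (tgxhGens G l) (tgkqUp G l ((b : ℕ) : ℤ) Y)
      = qExpand ℂ h (tkrTw (tkrExpUnit 1 (l : ℤ) ^ (b : ℕ)) (coeffMap (algebraMap 𝕜 ℂ) y)) := by
    intro b
    rw [tgxFieldQL_tgkqUp, hY, tkrTw_qExpand, tgkq_expUnit_pow]
  rw [Finset.prod_congr rfl (fun b _ => h1 b), ← map_prod,
    tkr_prod_pow_eq hζC (tgkq_isPrimitiveRoot_expUnit l)
      (fun c => tkrTw c (coeffMap (algebraMap 𝕜 ℂ) y)), map_prod]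
  refine Finset.prod_congr rfl (fun b _ => ?_)
  rw [coeffMap_tkrTw, map_pow]

end Level

/-- **the `q`-expansion identity for `T_l`** (with the diamond operator) -/
theorem tgkq_hecke_T (l : ℕ) [NeZero l] {ζ : 𝕜ˣ} (hζ : IsPrimitiveRoot (ζ : 𝕜) l)
    (Y DY TY : TgxField G) (y dy ty : LaurentSeries 𝕜)
    (hY : tgxFieldQL G Y = qExpand ℂ h (coeffMap (algebraMap 𝕜 ℂ) y))
    (hDY : tgxFieldQL G DY = qExpand ℂ h (coeffMap (algebraMap 𝕜 ℂ) dy))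
    (hTY : tgxFieldQL G TY = qExpand ℂ h (coeffMap (algebraMap 𝕜 ℂ) ty))
    (hmer : tgxToMer G TY
      = tdmCompInt !![(l : ℤ), 0; 0, 1] (tgkq_det_diag_pos l) (tgxToMer G DY)
        * ∏ b : Fin l, tdmCompInt !![1, ((b : ℕ) : ℤ); 0, (l : ℤ)] (tgkq_det_up_pos l _)
            (tgxToMer G Y)) :
    qExpand 𝕜 l ty = qExpand 𝕜 (l * l) dy * ∏ b ∈ Finset.range l, tkrTw (ζ ^ b) y := by
  have key : tgkhIncl G l TY = tgkqDiag G l DY * ∏ b : Fin l, tgkqUp G l ((b : ℕ) : ℤ) Y := by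
    apply tgxToMer_injective (tgxhGens G l)
    rw [tgxToMer_tgkhIncl, hmer, map_mul, map_prod, tgxToMer_tgkqDiag]
    congr 1
    exact Finset.prod_congr rfl (fun b _ => (tgxToMer_tgkqUp G l _ Y).symm)
  have h1 := congrArg (tgxFieldQL (tgxhGens G l)) key
  rw [map_mul, tgxFieldQL_tgkhIncl, tgxFieldQL_tgkqDiag, tgxFieldQL_prod_tgkqUp G l hζ Y y hY,
    hTY, hDY, qExpand_qExpand, qExpand_qExpand, qExpand_congr (mul_comm l h),
    qExpand_congr (mul_comm (l * l) h), ← qExpand_qExpand l h, ← qExpand_qExpand (l * l) h,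
    ← map_mul] at h1
  have h2 := qExpand_injective (R := ℂ) h h1
  rw [← coeffMap_qExpand, ← coeffMap_qExpand, ← map_mul] at h2
  exact tkr_coeffMap_injective (algebraMap 𝕜 ℂ).injective h2

/-- **the `q`-expansion identity for `U_l`** -/
theorem tgkq_hecke_U (l : ℕ) [NeZero l] {ζ : 𝕜ˣ} (hζ : IsPrimitiveRoot (ζ : 𝕜) l)
    (Y UY : TgxField G) (y uy : LaurentSeries 𝕜)
    (hY : tgxFieldQL G Y = qExpand ℂ h (coeffMap (algebraMap 𝕜 ℂ) y))
    (hUY : tgxFieldQL G UY = qExpand ℂ h (coeffMap (algebraMap 𝕜 ℂ) uy))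
    (hmer : tgxToMer G UY
      = ∏ b : Fin l, tdmCompInt !![1, ((b : ℕ) : ℤ); 0, (l : ℤ)] (tgkq_det_up_pos l _)
            (tgxToMer G Y)) :
    qExpand 𝕜 l uy = ∏ b ∈ Finset.range l, tkrTw (ζ ^ b) y := by
  have key : tgkhIncl G l UY = ∏ b : Fin l, tgkqUp G l ((b : ℕ) : ℤ) Y := by
    apply tgxToMer_injective (tgxhGens G l)
    rw [tgxToMer_tgkhIncl, hmer, map_prod]
    exact Finset.prod_congr rfl (fun b _ => (tgxToMer_tgkqUp G l _ Y).symm)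
  have h1 := congrArg (tgxFieldQL (tgxhGens G l)) key
  rw [tgxFieldQL_tgkhIncl, tgxFieldQL_prod_tgkqUp G l hζ Y y hY, hUY, qExpand_qExpand,
    qExpand_congr (mul_comm l h), ← qExpand_qExpand l h] at h1
  have h2 := qExpand_injective (R := ℂ) h h1
  rw [← coeffMap_qExpand] at h2
  exact tkr_coeffMap_injective (algebraMap 𝕜 ℂ).injective h2

end Fermat.Agent.T1G
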