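/-
T1G TG-KRON part C (helper7), step 6: **the functional Hecke operators on the function field
`laurentBaseChange 𝕜 F₀`** of any analytic model (generating system `G`, group `Γ`, identification
`iso` of the function field with the `Γ`-invariants of `TgxField G`, as in `TgdModel`):

* `tgkfFn`: the meromorphic function of an element of the function field;
* `tgkfOpU S l hdet : Fˣ → Fˣ` with `tgkfFn (tgkfOpU y) = S.prodFn (tgkfFn y)` for every coset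
  system `S` of `Γ` with determinants dividing `l`;
* `tgkf_hTD`: for `Γ = Γ₁(M)`, `T = tgmSysT`, `D = tgmSysD`: the `q`-expansion identity
  `(T z)(q^l) = (D z)(q^{l²}) ∏_{b<l} z(ζ^b q)`.
-/
import Mathlib
import Fermat.Agent.Lib.T1G.Kron.HeckeQ
import Fermat.Agent.Lib.T1G.ES.Coset
import Fermat.Prelude.Def_ModularCurve_LaurentCoeff

set_option autoImplicit false
set_option linter.unusedSectionVars false
set_option linter.style.haveILetI false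
set_option linter.unusedVariables false

namespace Fermat.Agent.T1G

open Fermat.Agent.S24Lib Fermat.Agent.T1 ModularCurve Fermat.Agent.DS
open UpperHalfPlane Matrix MatrixGroups CongruenceSubgroup
open Fermat.Agent.S22Lib (intGL intGL_det_pos)

section Generic

variable {𝕜 : Type} [Field 𝕜] [IsAlgClosed 𝕜] [Algebra 𝕜 ℂ] [Algebra ℚ 𝕜] {h : ℕ} [NeZero h]
  (G : TgxGens 𝕜 h) (Γ : Subgroup SL(2, ℤ)) (F₀ : IntermediateField ℚ (LaurentSeries ℚ))
  (iso : ↥(laurentBaseChange 𝕜 F₀) ≃ₐ[𝕜] ↥(IntermediateField.fixedField (Γ.map (tgxRep G))))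

/-- the meromorphic function on `ℍ` of an element of the function field -/
noncomputable def tgkfFn : ↥(laurentBaseChange 𝕜 F₀) →+* tdmMer :=
  (tgxToMer G).comp (((IntermediateField.fixedField (Γ.map (tgxRep G))).val :
    ↥(IntermediateField.fixedField (Γ.map (tgxRep G))) →+* TgxField G).comp
      (iso : ↥(laurentBaseChange 𝕜 F₀) →+* ↥(IntermediateField.fixedField (Γ.map (tgxRep G)))))

theorem tgkfFn_apply (y : ↥(laurentBaseChange 𝕜 F₀)) :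
    tgkfFn G Γ F₀ iso y = tgxToMer G ((iso y : ↥(IntermediateField.fixedField
      (Γ.map (tgxRep G)))) : TgxField G) := rfl

theorem tgkfFn_injective : Function.Injective (tgkfFn G Γ F₀ iso) := RingHom.injective _

theorem tgkf_iso_fixed (y : ↥(laurentBaseChange 𝕜 F₀)) (γ : SL(2, ℤ)) (hγ : γ ∈ Γ) :
    tgxRep G γ ((iso y : ↥(IntermediateField.fixedField (Γ.map (tgxRep G)))) : TgxField G)
      = ((iso y : ↥(IntermediateField.fixedField (Γ.map (tgxRep G)))) : TgxField G) :=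
  (iso y).2 ⟨tgxRep G γ, γ, hγ, rfl⟩

variable (hker : ∀ γ : SL(2, ℤ), tgxRep G γ = 1 → γ ∈ Γ ∨ -γ ∈ Γ)

include hker in
/-- **existence of the functional Hecke operators** on the function field -/
theorem tgkf_exists_op (l : ℕ) [NeZero l] {ι : Type} [Fintype ι] (S : tdmCosetSys Γ ι)
    (hdet : ∀ i, (S.rep i).det ∣ (l : ℤ)) (y : ↥(laurentBaseChange 𝕜 F₀)) :
    ∃ z : ↥(laurentBaseChange 𝕜 F₀),
      tgkfFn G Γ F₀ iso z = S.prodFn (tgkfFn G Γ F₀ iso y) := by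
  obtain ⟨Z, hZ, hZmer⟩ := tgkh_exists_hecke G l Γ hker S hdet
    ((iso y : ↥(IntermediateField.fixedField (Γ.map (tgxRep G)))) : TgxField G)
    (fun γ hγ => tgkf_iso_fixed G Γ F₀ iso y γ hγ)
  have hZmem : Z ∈ IntermediateField.fixedField (Γ.map (tgxRep G)) := by
    rintro ⟨g, γ, hγ, rfl⟩
    exact hZ γ hγ
  refine ⟨iso.symm ⟨Z, hZmem⟩, ?_⟩
  rw [tgkfFn_apply, AlgEquiv.apply_symm_apply]
  exact hZmer

/-- the functional Hecke operator attached to a coset system -/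
noncomputable def tgkfOp (l : ℕ) [NeZero l] {ι : Type} [Fintype ι] (S : tdmCosetSys Γ ι)
    (hdet : ∀ i, (S.rep i).det ∣ (l : ℤ)) (y : ↥(laurentBaseChange 𝕜 F₀)) :
    ↥(laurentBaseChange 𝕜 F₀) :=
  (tgkf_exists_op G Γ F₀ iso hker l S hdet y).choose

theorem tgkfFn_tgkfOp (l : ℕ) [NeZero l] {ι : Type} [Fintype ι] (S : tdmCosetSys Γ ι)
    (hdet : ∀ i, (S.rep i).det ∣ (l : ℤ)) (y : ↥(laurentBaseChange 𝕜 F₀)) :
    tgkfFn G Γ F₀ iso (tgkfOp G Γ F₀ iso hker l S hdet y)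
      = S.prodFn (tgkfFn G Γ F₀ iso y) :=
  (tgkf_exists_op G Γ F₀ iso hker l S hdet y).choose_spec

theorem tgkfOp_ne_zero (l : ℕ) [NeZero l] {ι : Type} [Fintype ι] (S : tdmCosetSys Γ ι)
    (hdet : ∀ i, (S.rep i).det ∣ (l : ℤ)) {y : ↥(laurentBaseChange 𝕜 F₀)} (hy : y ≠ 0) :
    tgkfOp G Γ F₀ iso hker l S hdet y ≠ 0 := by
  intro h0
  have h1 := tgkfFn_tgkfOp G Γ F₀ iso hker l S hdet y
  rw [h0, map_zero] at h1
  exact S.prodFn_ne_zero ((map_ne_zero _).mpr hy) h1.symm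

/-- the functional Hecke operator on units -/
noncomputable def tgkfOpU (l : ℕ) [NeZero l] {ι : Type} [Fintype ι] (S : tdmCosetSys Γ ι)
    (hdet : ∀ i, (S.rep i).det ∣ (l : ℤ)) (y : (↥(laurentBaseChange 𝕜 F₀))ˣ) :
    (↥(laurentBaseChange 𝕜 F₀))ˣ :=
  Units.mk0 (tgkfOp G Γ F₀ iso hker l S hdet (y : ↥(laurentBaseChange 𝕜 F₀)))
    (tgkfOp_ne_zero G Γ F₀ iso hker l S hdet y.ne_zero)

/-- **the analytic form** of the functional Hecke operators -/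
theorem tgkfFn_tgkfOpU (l : ℕ) [NeZero l] {ι : Type} [Fintype ι] (S : tdmCosetSys Γ ι)
    (hdet : ∀ i, (S.rep i).det ∣ (l : ℤ)) (y : (↥(laurentBaseChange 𝕜 F₀))ˣ) :
    tgkfFn G Γ F₀ iso ((tgkfOpU G Γ F₀ iso hker l S hdet y : (↥(laurentBaseChange 𝕜 F₀))ˣ) :
        ↥(laurentBaseChange 𝕜 F₀))
      = S.prodFn (tgkfFn G Γ F₀ iso (y : ↥(laurentBaseChange 𝕜 F₀))) :=
  tgkfFn_tgkfOp G Γ F₀ iso hker l S hdet _

/-- uniqueness -/
theorem tgkfOpU_eq_of_fn (l : ℕ) [NeZero l] {ι : Type} [Fintype ι] (S : tdmCosetSys Γ ι)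
    (hdet : ∀ i, (S.rep i).det ∣ (l : ℤ)) (y z : (↥(laurentBaseChange 𝕜 F₀))ˣ)
    (hz : tgkfFn G Γ F₀ iso (z : ↥(laurentBaseChange 𝕜 F₀))
      = S.prodFn (tgkfFn G Γ F₀ iso (y : ↥(laurentBaseChange 𝕜 F₀)))) :
    tgkfOpU G Γ F₀ iso hker l S hdet y = z := by
  apply Units.ext
  apply tgkfFn_injective G Γ F₀ iso
  rw [tgkfFn_tgkfOpU, hz]

end Generic

/-! ### The `q`-expansion identity for `T_l` on `Γ₁(M)` -/

section Gamma1

variable {𝕜 : Type} [Field 𝕜] [IsAlgClosed 𝕜] [Algebra 𝕜 ℂ] [Algebra ℚ 𝕜] {h : ℕ} [NeZero h]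
  (G : TgxGens 𝕜 h) (M : ℕ) [NeZero M] (F₀ : IntermediateField ℚ (LaurentSeries ℚ))
  (iso : ↥(laurentBaseChange 𝕜 F₀) ≃ₐ[𝕜]
    ↥(IntermediateField.fixedField ((Gamma1 M).map (tgxRep G))))
  (iso_ql : ∀ y : ↥(laurentBaseChange 𝕜 F₀),
    tgxFieldQL G ((iso y : ↥(IntermediateField.fixedField ((Gamma1 M).map (tgxRep G)))) :
      TgxField G) = qExpand ℂ h (coeffMap (algebraMap 𝕜 ℂ) (y : LaurentSeries 𝕜)))

theorem tgkf_compInt_SL (γ : SL(2, ℤ)) (hγ : 0 < (γ : Matrix (Fin 2) (Fin 2) ℤ).det)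
    (g : tdmMer) : tdmCompInt (γ : Matrix (Fin 2) (Fin 2) ℤ) hγ g = tdmSL γ g := by
  rw [tdmSL_eq_comp, tdmCompInt_eq_comp]
  exact AlgHom.congr_fun (tdmComp_congr (tdm_intGL_SL γ hγ) _ _) g

include iso_ql in
/-- **the `q`-expansion identity** `(T z)(q^l) = (D z)(q^{l²}) ∏_{b<l} z(ζ^b q)` -/
theorem tgkf_hTD {l : ℕ} [NeZero l] (hl : l.Prime) (hlM : ¬ l ∣ M) {ζ : 𝕜ˣ}
    (hζ : IsPrimitiveRoot (ζ : 𝕜) l) (z tz dz : ↥(laurentBaseChange 𝕜 F₀))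
    (hT : tgkfFn G (Gamma1 M) F₀ iso tz
      = (tgmSysT M hl hlM).prodFn (tgkfFn G (Gamma1 M) F₀ iso z))
    (hD : tgkfFn G (Gamma1 M) F₀ iso dz
      = (tgmSysD M (dshUnit M hl hlM)).prodFn (tgkfFn G (Gamma1 M) F₀ iso z)) :
    qExpand 𝕜 l (tz : LaurentSeries 𝕜)
      = qExpand 𝕜 (l * l) (dz : LaurentSeries 𝕜)
        * ∏ b ∈ Finset.range l, tkrTw (ζ ^ b) (z : LaurentSeries 𝕜) := by
  refine tgkq_hecke_T G l hζ _ _ _ _ _ _ (iso_ql z) (iso_ql dz) (iso_ql tz) ?_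
  have hD' : tgkfFn G (Gamma1 M) F₀ iso dz
      = tdmSL (tgmGammaP M hl hlM) (tgkfFn G (Gamma1 M) F₀ iso z) := by
    rw [hD, tdmCosetSys.prodFn_apply, Fintype.prod_unique]
    exact tgkf_compInt_SL _ _ _
  rw [← tgkfFn_apply, ← tgkfFn_apply, ← tgkfFn_apply, hT, tdmCosetSys.prodFn_apply,
    Fintype.prod_option, hD']
  congr 1
  have h2 : 0 < ((tgmGammaP M hl hlM : Matrix (Fin 2) (Fin 2) ℤ) * !![(l : ℤ), 0; 0, 1]).det := by
    rw [tdm_det_SL_mul]; exact tgkq_det_diag_pos l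
  exact tdmCompInt_SL_mul (tgmGammaP M hl hlM) _ (tgkq_det_diag_pos l) h2 _

end Gamma1

end Fermat.Agent.T1G
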