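/-
T1G, TG-KRON (helper7), part 1: **the multiplicative operator `Ũ_l` on ALL Laurent series** over a
domain `R` containing a primitive `l`-th root of unity `ζ`:  `(Ũ a)(q^l) = ∏_{b<l} a(ζ^b q)`.

The functional Hecke operator of `Γ₁(M)` at `l ∤ M` is `T_l y = (⟨l⟩ y)(q^l) · Ũ_l y`; at `l ∣ M` the
operator `U_l^fun` is `Ũ_l` itself.  `Ũ` commutes with injective base change and satisfies the
Kronecker congruence `red (Ũ a) = Frob(ā)` (coefficientwise Frobenius) for every reduction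
`π : R → S` with `char S = l`, `π ζ = 1`.  Also: the behaviour of Gauss representations
`f · b = a` (`TkrRep`) under `Ũ` and under `q ↦ q^n`.
-/
import Fermat.Agent.Lib.T1.Kron.Rep

set_option autoImplicit false
set_option linter.unusedSectionVars false
set_option linter.style.haveILetI false

namespace Fermat.Agent.T1G

open ModularCurve HahnSeries Fermat.Agent.T1

local notation "Kbar" => AlgebraicClosure ℚ

section Ut

variable {R : Type*} [CommRing R] [IsDomain R]

/-- the product of the twists by all `l`-th roots of unity is invariant under `q ↦ ζ q` -/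
theorem tgk_tw_prod (l : ℕ) [NeZero l] {ζ : Rˣ} (hζ : IsPrimitiveRoot (ζ : R) l)
    (a : LaurentSeries R) :
    tkrTw ζ (∏ b ∈ Finset.range l, tkrTw (ζ ^ b) a) = ∏ b ∈ Finset.range l, tkrTw (ζ ^ b) a := by
  have hζl : ζ ^ l = 1 := by
    apply Units.ext
    rw [Units.val_pow_eq_pow_val, Units.val_one]
    exact hζ.pow_eq_one
  rw [map_prod]
  by_cases ha : a = 0
  · have hl : 0 < l := Nat.pos_of_ne_zero (NeZero.ne l)
    rw [Finset.prod_eq_zero (Finset.mem_range.mpr hl) (by rw [ha, map_zero, map_zero]),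
      Finset.prod_eq_zero (Finset.mem_range.mpr hl) (by rw [ha, map_zero])]
  · have hstep : ∀ b : ℕ, tkrTw ζ (tkrTw (ζ ^ b) a) = tkrTw (ζ ^ (b + 1)) a := by
      intro b
      rw [← tkrTw_mul_apply, pow_succ']
    rw [Finset.prod_congr rfl (fun b _ => hstep b)]
    have h1 := Finset.prod_range_succ' (fun b => tkrTw (ζ ^ b) a) l
    have h2 := Finset.prod_range_succ (fun b => tkrTw (ζ ^ b) a) l
    rw [h1] at h2
    simp only [hζl, pow_zero, tkrTw_one_apply] at h2
    exact mul_right_cancel₀ ha h2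

theorem tgk_exists_ut (l : ℕ) [NeZero l] {ζ : Rˣ} (hζ : IsPrimitiveRoot (ζ : R) l)
    (a : LaurentSeries R) :
    ∃ z, qExpand R l z = ∏ b ∈ Finset.range l, tkrTw (ζ ^ b) a :=
  tkr_exists_qExpand_of_tw_fixed l hζ _ (tgk_tw_prod l hζ a)

/-- **the operator `Ũ_l`** on all Laurent series -/
noncomputable def tgkUt (l : ℕ) [NeZero l] {ζ : Rˣ} (hζ : IsPrimitiveRoot (ζ : R) l)
    (a : LaurentSeries R) : LaurentSeries R :=
  (tgk_exists_ut l hζ a).choose

theorem tgkUt_spec (l : ℕ) [NeZero l] {ζ : Rˣ} (hζ : IsPrimitiveRoot (ζ : R) l)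
    (a : LaurentSeries R) :
    qExpand R l (tgkUt l hζ a) = ∏ b ∈ Finset.range l, tkrTw (ζ ^ b) a :=
  (tgk_exists_ut l hζ a).choose_spec

theorem tgkUt_eq_of_spec (l : ℕ) [NeZero l] {ζ : Rˣ} (hζ : IsPrimitiveRoot (ζ : R) l)
    {a z : LaurentSeries R} (hz : qExpand R l z = ∏ b ∈ Finset.range l, tkrTw (ζ ^ b) a) :
    tgkUt l hζ a = z :=
  qExpand_injective (R := R) l ((tgkUt_spec l hζ a).trans hz.symm)

theorem tgkUt_mul (l : ℕ) [NeZero l] {ζ : Rˣ} (hζ : IsPrimitiveRoot (ζ : R) l)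
    (a b : LaurentSeries R) :
    tgkUt l hζ (a * b) = tgkUt l hζ a * tgkUt l hζ b := by
  apply tgkUt_eq_of_spec
  rw [map_mul, tgkUt_spec, tgkUt_spec]
  simp only [map_mul, Finset.prod_mul_distrib]

theorem tgkUt_one (l : ℕ) [NeZero l] {ζ : Rˣ} (hζ : IsPrimitiveRoot (ζ : R) l) :
    tgkUt l hζ (1 : LaurentSeries R) = 1 := by
  apply tgkUt_eq_of_spec
  simp

theorem tgkUt_zero (l : ℕ) [NeZero l] {ζ : Rˣ} (hζ : IsPrimitiveRoot (ζ : R) l) :
    tgkUt l hζ (0 : LaurentSeries R) = 0 := by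
  apply tgkUt_eq_of_spec
  simp [zero_pow (NeZero.ne l)]

theorem tgkUt_C (l : ℕ) [NeZero l] {ζ : Rˣ} (hζ : IsPrimitiveRoot (ζ : R) l) (c : R) :
    tgkUt l hζ (HahnSeries.C c : LaurentSeries R) = HahnSeries.C (c ^ l) := by
  apply tgkUt_eq_of_spec
  simp only [qExpand_C, tkrTw_C, Finset.prod_const, Finset.card_range]
  rw [← map_pow]

/-- `T̃_l a = a(q^l) · Ũ_l a` -/
theorem tkrTilde_eq_mul_tgkUt (l : ℕ) [NeZero l] {ζ : Rˣ} (hζ : IsPrimitiveRoot (ζ : R) l)
    (a : LaurentSeries R) :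
    tkrTilde l hζ a = qExpand R l a * tgkUt l hζ a := by
  apply tkrTilde_eq_of_spec
  rw [map_mul, tgkUt_spec, qExpand_qExpand]

/-- `Ũ` commutes with injective base change -/
theorem coeffMap_tgkUt {R' : Type*} [CommRing R'] [IsDomain R'] (f : R →+* R')
    (hf : Function.Injective f) (l : ℕ) [NeZero l] {ζ : Rˣ} (hζ : IsPrimitiveRoot (ζ : R) l)
    (a : LaurentSeries R) :
    coeffMap f (tgkUt l hζ a)
      = tgkUt l (ζ := Units.map (f : R →* R') ζ) (hζ.map_of_injective hf) (coeffMap f a) := by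
  symm
  apply tgkUt_eq_of_spec
  rw [← coeffMap_qExpand, tgkUt_spec, map_prod]
  refine Finset.prod_congr rfl (fun b _ => ?_)
  rw [coeffMap_tkrTw, map_pow]

/-- independence of the primitive root of unity -/
theorem tgkUt_congr_zeta (l : ℕ) [NeZero l] {ζ ζ' : Rˣ} (hζ : IsPrimitiveRoot (ζ : R) l)
    (hζ' : IsPrimitiveRoot (ζ' : R) l) (a : LaurentSeries R) :
    tgkUt l hζ a = tgkUt l hζ' a := by
  apply tgkUt_eq_of_spec
  rw [tgkUt_spec, Finset.prod_range (fun b => tkrTw (ζ' ^ b) a),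
    Finset.prod_range (fun b => tkrTw (ζ ^ b) a)]
  exact tkr_prod_pow_eq hζ hζ' (fun c => tkrTw c a)

/-- **the Kronecker congruence for `Ũ`**: `red (Ũ a) = Frob(ā)` -/
theorem tgk_congruence_ut {S : Type*} [CommRing S] (π : R →+* S) (l : ℕ) [NeZero l]
    [Fact l.Prime] [CharP S l] {ζ : Rˣ} (hζ : IsPrimitiveRoot (ζ : R) l) (hπ : π ζ = 1)
    (a : LaurentSeries R) :
    coeffMap π (tgkUt l hζ a) = coeffMap (frobenius S l) (coeffMap π a) := by
  apply qExpand_injective (R := S) l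
  have hζ' : ∀ b : ℕ, Units.map (π : R →* S) (ζ ^ b) = 1 := by
    intro b
    ext
    rw [map_pow, Units.val_pow_eq_pow_val, Units.coe_map, Units.val_one]
    show (π ζ) ^ b = 1
    rw [hπ, one_pow]
  rw [← coeffMap_qExpand, tgkUt_spec, map_prod, ← tkr_pow_char l (coeffMap π a),
    Finset.prod_congr rfl (fun b _ => by rw [coeffMap_tkrTw, hζ' b, tkrTw_one_apply]),
    Finset.prod_const, Finset.card_range]

end Ut

/-! ### Gauss representations -/

section Rep

variable {A : ValuationSubring Kbar}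

theorem tgk_rep_ut {f : LaurentSeries Kbar} {a b : LaurentSeries ↥A} (h : TkrRep A f a b)
    (l : ℕ) [NeZero l] {ζA : (↥A)ˣ} (hζA : IsPrimitiveRoot (ζA : ↥A) l)
    (hζ : IsPrimitiveRoot ((Units.map (A.subtype : ↥A →* Kbar) ζA : Kbarˣ) : Kbar) l) :
    TkrRep A (tgkUt l hζ f) (tgkUt l hζA a) (tgkUt l hζA b) := by
  have e : ∀ x : LaurentSeries ↥A,
      coeffMap A.subtype (tgkUt l hζA x) = tgkUt l hζ (coeffMap A.subtype x) :=
    fun x => coeffMap_tgkUt A.subtype A.subtype_injective l hζA x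
  unfold TkrRep at *
  rw [e, e, ← tgkUt_mul, h]

theorem tgk_rep_qExpand {f : LaurentSeries Kbar} {a b : LaurentSeries ↥A} (h : TkrRep A f a b)
    (n : ℕ) [NeZero n] :
    TkrRep A (ModularCurve.qExpand Kbar n f) (ModularCurve.qExpand ↥A n a)
      (ModularCurve.qExpand ↥A n b) := by
  unfold TkrRep at *
  rw [coeffMap_qExpand, coeffMap_qExpand, ← map_mul, h]

/-- the reduction of `Ũ a`: the Kronecker congruence -/
theorem tgk_red_ut (l : ℕ) [NeZero l] [Fact l.Prime] [CharP (IsLocalRing.ResidueField ↥A) l]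
    {ζA : (↥A)ˣ} (hζA : IsPrimitiveRoot (ζA : ↥A) l) (a : LaurentSeries ↥A) :
    coeffMap (IsLocalRing.residue ↥A) (tgkUt l hζA a)
      = coeffMap (frobenius (IsLocalRing.ResidueField ↥A) l)
          (coeffMap (IsLocalRing.residue ↥A) a) := by
  apply tgk_congruence_ut (IsLocalRing.residue ↥A) l hζA _ a
  apply tkr_residue_eq_one
  apply Units.ext
  rw [Units.val_pow_eq_pow_val, Units.val_one]
  exact hζA.pow_eq_one

end Rep

end Fermat.Agent.T1G
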