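/-
T1G, TG-KRON (helper7), part 2: **the two K3 element statements with diamond operator**, generic in
the rational function field `F₀ ⊆ ℚ((q))` (in the applications `F₀ = tgOneQ M`), `F = ℚ̄ · F₀`:
for `y ∈ tgWsub ℚ̄ F₀ m`, a prime `l`, `A ⊂ ℚ̄` a valuation subring over `l`:
 (i)  `σ ∈ I_A`           ⟹ `σ y = y · t^m`;
 (ii) `σ` Frobenius at `A` ⟹ `σ² y · (D y)^l = T(σ y) · t^m`,
where `T, D : Fˣ → Fˣ` are ANY two maps with `(T z)(q^l) = (D z)(q^{l²}) ∏_{b<l} z(ζ^b q)` and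
`D ∘ σ = σ ∘ D` (the functional Hecke operator `T_l` and the diamond operator `⟨l⟩` of `Γ₁(M)`).
Inputs: `TgkK12 F₀ m A` (a Gauss unit of `tgWsub` with reduction `1` is an `m`-th power) and
`TgkNormal F₀ A` (Gauss normal form).  No compatibility of `D` with the reduction is needed: the
normal form of `D y` cancels.  (Generic version of `Lib/T1/Kron/Assembly.lean`.)
-/
import Fermat.Agent.Lib.T1G.Kron.Ut
import Fermat.Agent.Lib.T1G.Mono.Defs

set_option autoImplicit false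
set_option linter.unusedSectionVars false
set_option linter.style.haveILetI false

namespace Fermat.Agent.T1G

open ModularCurve HahnSeries AlgebraicCurve Fermat.Agent.T1

local notation "Kbar" => AlgebraicClosure ℚ
local notation "GQ" => (AlgebraicClosure ℚ ≃ₐ[ℚ] AlgebraicClosure ℚ)

section Defs

variable (F₀ : IntermediateField ℚ (LaurentSeries ℚ))

/-- constants as units of the function field -/
noncomputable def tgkConst : Kbarˣ →* (↥(laurentBaseChange Kbar F₀))ˣ :=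
  Units.map ((algebraMap Kbar ↥(laurentBaseChange Kbar F₀) : Kbar →+* _) : Kbar →* _)

@[simp]
theorem tgkConst_coe (c : Kbarˣ) :
    (((tgkConst F₀ c : (↥(laurentBaseChange Kbar F₀))ˣ) : ↥(laurentBaseChange Kbar F₀)) :
      LaurentSeries Kbar) = algebraMap Kbar (LaurentSeries Kbar) (c : Kbar) := rfl

variable (m : ℕ) (A : ValuationSubring Kbar)

/-- **(K1)** for the valuation subring `A`: an element of `tgWsub` which is a Gauss unit with
reduction `1` is an `m`-th power. -/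
def TgkK12 : Prop :=
  ∀ Y : (↥(laurentBaseChange Kbar F₀))ˣ, Y ∈ tgWsub Kbar F₀ m →
    (∃ a b : LaurentSeries ↥A,
      coeffMap (IsLocalRing.residue ↥A) a = coeffMap (IsLocalRing.residue ↥A) b ∧
      coeffMap (IsLocalRing.residue ↥A) b ≠ 0 ∧
      TkrRep A ((Y : ↥(laurentBaseChange Kbar F₀)) : LaurentSeries Kbar) a b) →
    ∃ t : (↥(laurentBaseChange Kbar F₀))ˣ, Y = t ^ m

/-- **Gauss normal form**: every `y ≠ 0` of the function field is, up to a constant, a quotient of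
two primitive integral Laurent series. -/
def TgkNormal : Prop :=
  ∀ y : (↥(laurentBaseChange Kbar F₀))ˣ, ∃ c : Kbar, c ≠ 0 ∧ ∃ a b : LaurentSeries ↥A,
    coeffMap (IsLocalRing.residue ↥A) a ≠ 0 ∧ coeffMap (IsLocalRing.residue ↥A) b ≠ 0 ∧
    TkrRep A (algebraMap Kbar (LaurentSeries Kbar) c
      * ((y : ↥(laurentBaseChange Kbar F₀)) : LaurentSeries Kbar)) a b

end Defs

section K3

variable {F₀ : IntermediateField ℚ (LaurentSeries ℚ)} {m : ℕ} {A : ValuationSubring Kbar}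

/-- the common core: constants are `m`-th powers -/
theorem tgk_K3_core (hK : TgkK12 F₀ m A) (hm : m ≠ 0) {Y0 : (↥(laurentBaseChange Kbar F₀))ˣ}
    (hY0 : Y0 ∈ tgWsub Kbar F₀ m) {d : Kbar} (hd : d ≠ 0) {a b : LaurentSeries ↥A}
    (hred : coeffMap (IsLocalRing.residue ↥A) a = coeffMap (IsLocalRing.residue ↥A) b)
    (hb : coeffMap (IsLocalRing.residue ↥A) b ≠ 0)
    (hrep : TkrRep A (algebraMap Kbar (LaurentSeries Kbar) d
      * ((Y0 : ↥(laurentBaseChange Kbar F₀)) : LaurentSeries Kbar)) a b) :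
    ∃ t : (↥(laurentBaseChange Kbar F₀))ˣ, Y0 = t ^ m := by
  obtain ⟨e, he⟩ := IsAlgClosed.exists_pow_nat_eq d (Nat.pos_of_ne_zero hm)
  have he0 : e ≠ 0 := by
    rintro rfl
    rw [zero_pow hm] at he
    exact hd he.symm
  set E : (↥(laurentBaseChange Kbar F₀))ˣ := tgkConst F₀ (Units.mk0 e he0) with hE
  have hY' : E ^ m * Y0 ∈ tgWsub Kbar F₀ m :=
    (tgWsub Kbar F₀ m).mul_mem (tg_pow_mem_tgWsub F₀ m E) hY0
  obtain ⟨t, ht⟩ := hK (E ^ m * Y0) hY' ⟨a, b, hred, hb, by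
    have : (((E ^ m * Y0 : (↥(laurentBaseChange Kbar F₀))ˣ) : ↥(laurentBaseChange Kbar F₀)) :
        LaurentSeries Kbar) = algebraMap Kbar (LaurentSeries Kbar) d
          * ((Y0 : ↥(laurentBaseChange Kbar F₀)) : LaurentSeries Kbar) := by
      rw [Units.val_mul, Units.val_pow_eq_pow_val, MulMemClass.coe_mul, SubmonoidClass.coe_pow,
        hE, tgkConst_coe, Units.val_mk0, ← map_pow, he]
    rw [this]
    exact hrep⟩
  refine ⟨E⁻¹ * t, ?_⟩
  rw [mul_pow, ← ht, inv_pow, inv_mul_cancel_left]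

/-- **K3 (i): inertia acts trivially modulo `m`-th powers** -/
theorem tgk_K3_inertia (hK : TgkK12 F₀ m A) (hnorm : TgkNormal F₀ A) (hm : m ≠ 0) {σ : GQ}
    (hσ : σ ∈ A.inertiaSubgroupIn ℚ) {y : (↥(laurentBaseChange Kbar F₀))ˣ}
    (hy : y ∈ tgWsub Kbar F₀ m) :
    ∃ t : (↥(laurentBaseChange Kbar F₀))ˣ, tgSig F₀ σ y = y * t ^ m := by
  obtain ⟨g, hg, rfl⟩ := hσ
  have hgκ : MulSemiringAction.toRingHom (A.decompositionSubgroup ℚ)
      (IsLocalRing.ResidueField ↥A) g = RingHom.id _ := by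
    ext x
    have := MonoidHom.mem_ker.mp hg
    have h2 := congrArg (fun e : RingAut (IsLocalRing.ResidueField ↥A) => e x) this
    exact h2
  obtain ⟨c, hc, a, b, ha, hb, hrep⟩ := hnorm y
  change ∃ t : (↥(laurentBaseChange Kbar F₀))ˣ, tgSig F₀ (g : GQ) y = y * t ^ m
  generalize hσdef : (g : GQ) = σ at *
  have hσc : (σ : Kbar →+* Kbar) c ≠ 0 := (map_ne_zero _).mpr hc
  have hrepσ := hrep.act g
  rw [hσdef, map_mul, coeffMap_algebraMap] at hrepσ
  have hy0 : ((y : ↥(laurentBaseChange Kbar F₀)) : LaurentSeries Kbar) ≠ 0 := by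
    simp
  have hcy0 : algebraMap Kbar (LaurentSeries Kbar) c
      * ((y : ↥(laurentBaseChange Kbar F₀)) : LaurentSeries Kbar) ≠ 0 :=
    mul_ne_zero ((map_ne_zero _).mpr hc) hy0
  have hrep' := hrepσ.mul (hrep.inv hcy0)
  have hY0 : tgSig F₀ σ y * y⁻¹ ∈ tgWsub Kbar F₀ m :=
    (tgWsub Kbar F₀ m).mul_mem (tgSig_mem_tgWsub F₀ m σ hy) ((tgWsub Kbar F₀ m).inv_mem hy)
  have hd : (σ : Kbar →+* Kbar) c / c ≠ 0 := div_ne_zero hσc hc
  obtain ⟨t, ht⟩ := tgk_K3_core hK hm hY0 hd (a := tkrActA g a * b) (b := tkrActA g b * a)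
    (by rw [map_mul, map_mul, tkr_red_actA, tkr_red_actA, hgκ, coeffMap_id, coeffMap_id,
      mul_comm])
    (by rw [map_mul, tkr_red_actA, hgκ, coeffMap_id]; exact mul_ne_zero hb ha)
    (by
      convert hrep' using 1
      rw [Units.val_mul, MulMemClass.coe_mul, tgSig_coe, Units.val_inv_eq_inv_val,
        map_div₀, mul_inv]
      have : (((y : ↥(laurentBaseChange Kbar F₀))⁻¹ : ↥(laurentBaseChange Kbar F₀)) :
          LaurentSeries Kbar) = ((y : ↥(laurentBaseChange Kbar F₀)) : LaurentSeries Kbar)⁻¹ := rfl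
      rw [this, div_eq_mul_inv]
      ring)
  refine ⟨t, ?_⟩
  rw [← ht, mul_comm (tgSig F₀ σ y), mul_inv_cancel_left]

/-- **K3 (ii): the Eichler–Shimura relation on functions, with diamond operator**:
`σ²y · (D y)^l = T(σ y) · t^m` for `σ` a Frobenius element at `A | l`, for any two maps `T`, `D`
with `(T z)(q^l) = (D z)(q^{l²}) ∏_{b<l} z(ζ^b q)` and `D σ = σ D`. -/
theorem tgk_K3_frob (hK : TgkK12 F₀ m A) (hnorm : TgkNormal F₀ A) (hm : m ≠ 0) {l : ℕ} [NeZero l]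
    (hl : l.Prime) (hA : A.LiesOverPrime l) {σ : GQ} (hσ : A.IsFrobeniusAt σ l)
    (Tf Df : (↥(laurentBaseChange Kbar F₀))ˣ → (↥(laurentBaseChange Kbar F₀))ˣ)
    (hTD : ∀ ζ : Kbarˣ, IsPrimitiveRoot (ζ : Kbar) l → ∀ z : (↥(laurentBaseChange Kbar F₀))ˣ,
      qExpand Kbar l (((Tf z : (↥(laurentBaseChange Kbar F₀))ˣ) : ↥(laurentBaseChange Kbar F₀)) :
          LaurentSeries Kbar)
        = qExpand Kbar (l * l) (((Df z : (↥(laurentBaseChange Kbar F₀))ˣ) :
            ↥(laurentBaseChange Kbar F₀)) : LaurentSeries Kbar)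
          * ∏ b ∈ Finset.range l, tkrTw (ζ ^ b)
            (((z : (↥(laurentBaseChange Kbar F₀))ˣ) : ↥(laurentBaseChange Kbar F₀)) :
              LaurentSeries Kbar))
    (hDσ : ∀ z : (↥(laurentBaseChange Kbar F₀))ˣ, Df (tgSig F₀ σ z) = tgSig F₀ σ (Df z))
    {y : (↥(laurentBaseChange Kbar F₀))ˣ} (hy : y ∈ tgWsub Kbar F₀ m)
    (hT : Tf (tgSig F₀ σ y) ∈ tgWsub Kbar F₀ m) (hD : Df y ∈ tgWsub Kbar F₀ m) :
    ∃ t : (↥(laurentBaseChange Kbar F₀))ˣ,
      tgSig F₀ σ (tgSig F₀ σ y) * Df y ^ l = Tf (tgSig F₀ σ y) * t ^ m := by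
  haveI : Fact l.Prime := ⟨hl⟩
  haveI : CharP (IsLocalRing.ResidueField ↥A) l := tkr_charP_residue hl hA
  obtain ⟨hσD, hfrob⟩ := hσ
  set g : A.decompositionSubgroup ℚ := ⟨σ, hσD⟩ with hgdef
  have hgσ : (g : GQ) = σ := rfl
  have hgκ : MulSemiringAction.toRingHom (A.decompositionSubgroup ℚ)
      (IsLocalRing.ResidueField ↥A) g = frobenius (IsLocalRing.ResidueField ↥A) l := by
    ext x
    exact hfrob x
  -- the root of unity
  obtain ⟨ζ, hζ, -⟩ := tkr_exists_zeta l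
  have hζl : ζ ^ l = 1 := by
    apply Units.ext
    rw [Units.val_pow_eq_pow_val, Units.val_one]
    exact hζ.pow_eq_one
  obtain ⟨ζA, hζA'⟩ := tkr_exists_unit_of_pow_eq_one (A := A) hl.ne_zero hζl
  subst hζA'
  have hζA : IsPrimitiveRoot (ζA : ↥A) l :=
    IsPrimitiveRoot.of_map_of_injective (f := A.subtype) hζ A.subtype_injective
  -- the representations
  obtain ⟨c, hc, a, b, ha, hb, hrep⟩ := hnorm y
  obtain ⟨c', hc', a', b', ha', hb', hrep'⟩ := hnorm (Df y)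
  have hσc : (σ : Kbar →+* Kbar) c ≠ 0 := (map_ne_zero _).mpr hc
  have hσc' : (σ : Kbar →+* Kbar) c' ≠ 0 := (map_ne_zero _).mpr hc'
  have hσσc : (σ : Kbar →+* Kbar) ((σ : Kbar →+* Kbar) c) ≠ 0 := (map_ne_zero _).mpr hσc
  have rep1 := hrep.act g
  rw [hgσ, map_mul, coeffMap_algebraMap] at rep1
  have rep2 := rep1.act g
  rw [hgσ, map_mul, coeffMap_algebraMap] at rep2
  have rep1' := hrep'.act g
  rw [hgσ, map_mul, coeffMap_algebraMap] at rep1'
  have hC : ∀ x : Kbar, algebraMap Kbar (LaurentSeries Kbar) x = HahnSeries.C x := fun x => by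
    rw [algebraMap_laurentSeries_eq_single]; rfl
  -- `T (σ y) = (σ D y)(q^l) · Ũ(σ y)`
  have hTeq : (((Tf (tgSig F₀ σ y) : (↥(laurentBaseChange Kbar F₀))ˣ) :
      ↥(laurentBaseChange Kbar F₀)) : LaurentSeries Kbar)
      = qExpand Kbar l (coeffMap (σ : Kbar →+* Kbar)
          (((Df y : (↥(laurentBaseChange Kbar F₀))ˣ) : ↥(laurentBaseChange Kbar F₀)) :
            LaurentSeries Kbar))
        * tgkUt l hζ (coeffMap (σ : Kbar →+* Kbar)
          (((y : (↥(laurentBaseChange Kbar F₀))ˣ) : ↥(laurentBaseChange Kbar F₀)) :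
            LaurentSeries Kbar)) := by
    apply qExpand_injective (R := Kbar) l
    rw [hTD _ hζ, map_mul, tgkUt_spec, qExpand_qExpand, hDσ, tgSig_coe, tgSig_coe]
  have repU := tgk_rep_ut rep1 l hζA hζ
  rw [tgkUt_mul, hC, tgkUt_C, ← hC] at repU
  have repQ := tgk_rep_qExpand rep1' l
  rw [map_mul, hC, qExpand_C, ← hC] at repQ
  have repT := repQ.mul repU
  have hT0 : (((Tf (tgSig F₀ σ y) : (↥(laurentBaseChange Kbar F₀))ˣ) :
      ↥(laurentBaseChange Kbar F₀)) : LaurentSeries Kbar) ≠ 0 := by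
    simp
  have hTne : algebraMap Kbar (LaurentSeries Kbar) ((σ : Kbar →+* Kbar) c')
      * qExpand Kbar l (coeffMap (σ : Kbar →+* Kbar)
          (((Df y : (↥(laurentBaseChange Kbar F₀))ˣ) : ↥(laurentBaseChange Kbar F₀)) :
            LaurentSeries Kbar))
      * (algebraMap Kbar (LaurentSeries Kbar) ((σ : Kbar →+* Kbar) c ^ l)
        * tgkUt l hζ (coeffMap (σ : Kbar →+* Kbar)
          (((y : (↥(laurentBaseChange Kbar F₀))ˣ) : ↥(laurentBaseChange Kbar F₀)) :
            LaurentSeries Kbar))) ≠ 0 := by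
    rw [hTeq] at hT0
    have h1 := (mul_ne_zero_iff.mp hT0)
    exact mul_ne_zero (mul_ne_zero ((map_ne_zero _).mpr hσc') h1.1)
      (mul_ne_zero ((map_ne_zero _).mpr (pow_ne_zero _ hσc)) h1.2)
  have hrepF := (rep2.mul (hrep'.pow l)).mul (repT.inv hTne)
  -- the element
  have hY0 : tgSig F₀ σ (tgSig F₀ σ y) * Df y ^ l * (Tf (tgSig F₀ σ y))⁻¹
      ∈ tgWsub Kbar F₀ m :=
    (tgWsub Kbar F₀ m).mul_mem ((tgWsub Kbar F₀ m).mul_mem
      (tgSig_mem_tgWsub F₀ m σ (tgSig_mem_tgWsub F₀ m σ hy)) ((tgWsub Kbar F₀ m).pow_mem hD l))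
      ((tgWsub Kbar F₀ m).inv_mem hT)
  have hd : (σ : Kbar →+* Kbar) ((σ : Kbar →+* Kbar) c) * c' ^ l
      / ((σ : Kbar →+* Kbar) c' * ((σ : Kbar →+* Kbar) c) ^ l) ≠ 0 :=
    div_ne_zero (mul_ne_zero hσσc (pow_ne_zero _ hc'))
      (mul_ne_zero hσc' (pow_ne_zero _ hσc))
  -- reductions
  set φ := coeffMap (frobenius (IsLocalRing.ResidueField ↥A) l) with hφ
  set ab := coeffMap (IsLocalRing.residue ↥A) a with hab
  set bb := coeffMap (IsLocalRing.residue ↥A) b with hbb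
  set ab' := coeffMap (IsLocalRing.residue ↥A) a' with hab'
  set bb' := coeffMap (IsLocalRing.residue ↥A) b' with hbb'
  have hφinj : Function.Injective φ :=
    tkr_coeffMap_injective (frobenius (IsLocalRing.ResidueField ↥A) l).injective
  have hredA : coeffMap (IsLocalRing.residue ↥A)
      (tkrActA g (tkrActA g a) * a' ^ l
        * (qExpand ↥A l (tkrActA g b') * tgkUt l hζA (tkrActA g b)))
      = φ (φ ab) * qExpand _ l (φ ab') * (qExpand _ l (φ bb') * φ (φ bb)) := by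
    rw [map_mul, map_mul, map_mul, map_pow, tgk_red_ut, coeffMap_qExpand, tkr_red_actA,
      tkr_red_actA, tkr_red_actA, tkr_red_actA, hgκ, tkr_pow_char l]
  have hredB : coeffMap (IsLocalRing.residue ↥A)
      (tkrActA g (tkrActA g b) * b' ^ l
        * (qExpand ↥A l (tkrActA g a') * tgkUt l hζA (tkrActA g a)))
      = φ (φ bb) * qExpand _ l (φ bb') * (qExpand _ l (φ ab') * φ (φ ab)) := by
    rw [map_mul, map_mul, map_mul, map_pow, tgk_red_ut, coeffMap_qExpand, tkr_red_actA,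
      tkr_red_actA, tkr_red_actA, tkr_red_actA, hgκ, tkr_pow_char l]
  obtain ⟨t, ht⟩ := tgk_K3_core hK hm hY0 hd
    (a := tkrActA g (tkrActA g a) * a' ^ l
        * (qExpand ↥A l (tkrActA g b') * tgkUt l hζA (tkrActA g b)))
    (b := tkrActA g (tkrActA g b) * b' ^ l
        * (qExpand ↥A l (tkrActA g a') * tgkUt l hζA (tkrActA g a)))
    (by rw [hredA, hredB]; ring)
    (by
      rw [hredB]
      have h1 : φ bb ≠ 0 := fun h => hb (hφinj (by rw [h, map_zero]))
      have h2 : φ (φ bb) ≠ 0 := fun h => h1 (hφinj (by rw [h, map_zero]))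
      have h3 : φ ab ≠ 0 := fun h => ha (hφinj (by rw [h, map_zero]))
      have h4 : φ (φ ab) ≠ 0 := fun h => h3 (hφinj (by rw [h, map_zero]))
      have h5 : φ bb' ≠ 0 := fun h => hb' (hφinj (by rw [h, map_zero]))
      have h6 : φ ab' ≠ 0 := fun h => ha' (hφinj (by rw [h, map_zero]))
      have hq : ∀ x : LaurentSeries (IsLocalRing.ResidueField ↥A), x ≠ 0 →
          qExpand (IsLocalRing.ResidueField ↥A) l x ≠ 0 := fun x hx h =>
        hx (qExpand_injective (R := IsLocalRing.ResidueField ↥A) l (by rw [h, map_zero]))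
      exact mul_ne_zero (mul_ne_zero h2 (hq _ h5)) (mul_ne_zero (hq _ h6) h4))
    (by
      convert hrepF using 1
      rw [Units.val_mul, Units.val_mul, MulMemClass.coe_mul, MulMemClass.coe_mul, tgSig_coe,
        tgSig_coe, Units.val_inv_eq_inv_val, Units.val_pow_eq_pow_val, SubmonoidClass.coe_pow,
        map_div₀, map_mul, map_mul, map_pow, map_pow, mul_inv, mul_pow]
      have : ((((Tf (tgSig F₀ σ y) : (↥(laurentBaseChange Kbar F₀))ˣ) :
          ↥(laurentBaseChange Kbar F₀))⁻¹ : ↥(laurentBaseChange Kbar F₀)) : LaurentSeries Kbar)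
          = (((Tf (tgSig F₀ σ y) : (↥(laurentBaseChange Kbar F₀))ˣ) :
            ↥(laurentBaseChange Kbar F₀)) : LaurentSeries Kbar)⁻¹ := rfl
      rw [this, hTeq, div_eq_mul_inv]
      ring)
  refine ⟨t, ?_⟩
  rw [← ht, mul_comm _ (tgSig F₀ σ (tgSig F₀ σ y) * Df y ^ l * _), inv_mul_cancel_right]

end K3

end Fermat.Agent.T1G
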