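/-
T1G TG-KRON part C (helper7), step 7: **K3 for `Γ₁(M)`**: the functional operators `T_l`, `⟨l⟩` on
the function field `laurentBaseChange ℚ̄ (tgOneQ M)` of any analytic model of `Γ₁(M)` at level `M`
(generating system `G`, `iso`, `iso_ql`, `hker` as in `TgdModel`), their analytic forms (`hTf`,
`hDf` of `TgdDescent.gal_frob`), the `q`-expansion identity, the Galois equivariance of the diamond
operator (from a Galois package `Gal : TgGalois ℚ̄ M ζ` computing the expansions at the cusps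
`γ ∞`, `γ ∈ Γ₀(M)`), and the Eichler–Shimura relation on functions
`σ²y · (⟨l⟩ y)^l = T_l(σ y) · t^m` (`hrel` of `TgdDescent.gal_frob`).
-/
import Mathlib
import Fermat.Agent.Lib.T1G.Kron.HeckeOp
import Fermat.Agent.Lib.T1G.Kron.DiamondSig
import Fermat.Agent.Lib.T1G.Kron.K3
import Fermat.Agent.Lib.T1G.GMod.Qk
import Fermat.Agent.Lib.T1G.Mono.Defs

set_option autoImplicit false
set_option linter.unusedSectionVars false
set_option linter.style.haveILetI false
set_option linter.unusedVariables false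

namespace Fermat.Agent.T1G

open Fermat.Agent.S24Lib Fermat.Agent.T1 ModularCurve Fermat.Agent.DS
open UpperHalfPlane Matrix MatrixGroups CongruenceSubgroup
open Fermat.Agent.S22Lib (intGL intGL_det_pos)

local notation "Kbar" => AlgebraicClosure ℚ
local notation "GQ" => (AlgebraicClosure ℚ ≃ₐ[ℚ] AlgebraicClosure ℚ)

variable (M : ℕ) [NeZero M] (G : TgxGens Kbar M)
  (iso : ↥(laurentBaseChange Kbar (tgOneQ M)) ≃ₐ[Kbar]
    ↥(IntermediateField.fixedField ((Gamma1 M).map (tgxRep G))))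
  (iso_ql : ∀ y : ↥(laurentBaseChange Kbar (tgOneQ M)),
    tgxFieldQL G ((iso y : ↥(IntermediateField.fixedField ((Gamma1 M).map (tgxRep G)))) :
      TgxField G) = qExpand ℂ M (coeffMap (algebraMap Kbar ℂ) (y : LaurentSeries Kbar)))
  (hker : ∀ γ : SL(2, ℤ), tgxRep G γ = 1 → γ ∈ Gamma1 M ∨ -γ ∈ Gamma1 M)

/-! ### The operators -/

/-- the functional Hecke operator `T_l`, `l ∤ M` prime -/
noncomputable def tgkfT {l : ℕ} [NeZero l] (hl : l.Prime) (hlM : ¬ l ∣ M) :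
    (↥(laurentBaseChange Kbar (tgOneQ M)))ˣ → (↥(laurentBaseChange Kbar (tgOneQ M)))ˣ :=
  tgkfOpU G (Gamma1 M) (tgOneQ M) iso hker l (tgmSysT M hl hlM)
    (fun i => by rw [tgmSysT_rep, tgmRepT_det])

/-- the functional diamond operator `⟨d⟩` -/
noncomputable def tgkfD (d : (ZMod M)ˣ) :
    (↥(laurentBaseChange Kbar (tgOneQ M)))ˣ → (↥(laurentBaseChange Kbar (tgOneQ M)))ˣ :=
  tgkfOpU G (Gamma1 M) (tgOneQ M) iso hker 1 (tgmSysD M d)
    (fun i => by rw [tgmSysD_rep, (dshGammaU M d).2]; exact one_dvd _)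

/-- **the analytic form of `T_l`** (`hTf` of `TgdDescent.gal_frob`) -/
theorem tgkfFn_tgkfT {l : ℕ} [NeZero l] (hl : l.Prime) (hlM : ¬ l ∣ M)
    (y : (↥(laurentBaseChange Kbar (tgOneQ M)))ˣ) :
    tgkfFn G (Gamma1 M) (tgOneQ M) iso
        ((tgkfT M G iso hker hl hlM y : (↥(laurentBaseChange Kbar (tgOneQ M)))ˣ) :
          ↥(laurentBaseChange Kbar (tgOneQ M)))
      = (tgmSysT M hl hlM).prodFn (tgkfFn G (Gamma1 M) (tgOneQ M) iso
          (y : ↥(laurentBaseChange Kbar (tgOneQ M)))) :=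
  tgkfFn_tgkfOpU _ _ _ _ _ _ _ _ y

/-- **the analytic form of `⟨d⟩`** (`hDf` of `TgdDescent.gal_frob`) -/
theorem tgkfFn_tgkfD (d : (ZMod M)ˣ) (y : (↥(laurentBaseChange Kbar (tgOneQ M)))ˣ) :
    tgkfFn G (Gamma1 M) (tgOneQ M) iso
        ((tgkfD M G iso hker d y : (↥(laurentBaseChange Kbar (tgOneQ M)))ˣ) :
          ↥(laurentBaseChange Kbar (tgOneQ M)))
      = (tgmSysD M d).prodFn (tgkfFn G (Gamma1 M) (tgOneQ M) iso
          (y : ↥(laurentBaseChange Kbar (tgOneQ M)))) :=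
  tgkfFn_tgkfOpU _ _ _ _ _ _ _ _ y

include iso_ql in
/-- **the `q`-expansion identity** -/
theorem tgkf_hTD_units {l : ℕ} [NeZero l] (hl : l.Prime) (hlM : ¬ l ∣ M) (ζ : Kbarˣ)
    (hζ : IsPrimitiveRoot (ζ : Kbar) l) (z : (↥(laurentBaseChange Kbar (tgOneQ M)))ˣ) :
    qExpand Kbar l (((tgkfT M G iso hker hl hlM z : (↥(laurentBaseChange Kbar (tgOneQ M)))ˣ) :
        ↥(laurentBaseChange Kbar (tgOneQ M))) : LaurentSeries Kbar)
      = qExpand Kbar (l * l) (((tgkfD M G iso hker (dshUnit M hl hlM) z :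
          (↥(laurentBaseChange Kbar (tgOneQ M)))ˣ) : ↥(laurentBaseChange Kbar (tgOneQ M))) :
            LaurentSeries Kbar)
        * ∏ b ∈ Finset.range l, tkrTw (ζ ^ b)
            (((z : (↥(laurentBaseChange Kbar (tgOneQ M)))ˣ) :
              ↥(laurentBaseChange Kbar (tgOneQ M))) : LaurentSeries Kbar) :=
  tgkf_hTD G M (tgOneQ M) iso iso_ql hl hlM hζ _ _ _ (tgkfFn_tgkfT M G iso hker hl hlM z)
    (tgkfFn_tgkfD M G iso hker _ z)

/-! ### Galois equivariance of the diamond operators -/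

include iso_ql in
/-- the `ℚ̄`-rational expansion of `iso y` -/
theorem tgkf_iso_qk (y : ↥(laurentBaseChange Kbar (tgOneQ M))) :
    tgxFieldQk G ((iso y : ↥(IntermediateField.fixedField ((Gamma1 M).map (tgxRep G)))) :
      TgxField G) = qExpand Kbar M (y : LaurentSeries Kbar) := by
  rw [tgxFieldQk_eq_iff, coeffMap_qExpand, iso_ql]

variable {ζ : Kbarˣ} (hζ : IsPrimitiveRoot ζ M) (Gal : TgGalois Kbar M ζ)
  (hemb : ∀ γ ∈ Gamma0 M, ∀ (y : ↥(laurentBaseChange Kbar (tgOneQ M)))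
    (hy : (y : LaurentSeries Kbar) ∈ TgOne Kbar M ζ),
    tgxFieldQk G (tgxRep G γ
      ((iso y : ↥(IntermediateField.fixedField ((Gamma1 M).map (tgxRep G)))) : TgxField G))
      = Gal.tgEmb γ ⟨(y : LaurentSeries Kbar), hy⟩)

include hζ in
theorem tgkf_mem_tgOne (y : ↥(laurentBaseChange Kbar (tgOneQ M))) :
    (y : LaurentSeries Kbar) ∈ TgOne Kbar M ζ := by
  rw [← tg_baseChange_oneQ M Kbar ζ hζ]
  exact y.2

include iso_ql hζ hemb in
/-- **the action of `γ ∈ Γ₀(M)` on the function field commutes with the Galois action** -/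
theorem tgkf_rep_sigma {γ : SL(2, ℤ)} (hγ : γ ∈ Gamma0 M) (σ : GQ)
    (y y' : ↥(laurentBaseChange Kbar (tgOneQ M)))
    (hyy' : ((iso y' : ↥(IntermediateField.fixedField ((Gamma1 M).map (tgxRep G)))) : TgxField G)
      = tgxRep G γ
        ((iso y : ↥(IntermediateField.fixedField ((Gamma1 M).map (tgxRep G)))) : TgxField G)) :
    ((iso (arithmeticRingAut (tgOneQ M) σ y') :
        ↥(IntermediateField.fixedField ((Gamma1 M).map (tgxRep G)))) : TgxField G)
      = tgxRep G γ ((iso (arithmeticRingAut (tgOneQ M) σ y) :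
        ↥(IntermediateField.fixedField ((Gamma1 M).map (tgxRep G)))) : TgxField G) := by
  apply tgxFieldQk_injective G
  have h1 : ((arithmeticRingAut (tgOneQ M) σ y' : ↥(laurentBaseChange Kbar (tgOneQ M))) :
      LaurentSeries Kbar) = coeffMap (σ : Kbar →+* Kbar) (y' : LaurentSeries Kbar) := rfl
  have h2 : ((arithmeticRingAut (tgOneQ M) σ y : ↥(laurentBaseChange Kbar (tgOneQ M))) :
      LaurentSeries Kbar) = coeffMap (σ : Kbar →+* Kbar) (y : LaurentSeries Kbar) := rfl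
  rw [tgkf_iso_qk M G iso iso_ql, h1, ← coeffMap_qExpand, ← tgkf_iso_qk M G iso iso_ql y', hyy',
    hemb γ hγ y (tgkf_mem_tgOne M hζ y), tgks_tgEmb_sigma Gal (σ : Kbar →+* Kbar) hζ hγ,
    hemb γ hγ _ (tgkf_mem_tgOne M hζ _)]
  rfl

include iso_ql hζ hemb in
/-- **`⟨d⟩ σ = σ ⟨d⟩`** on functions -/
theorem tgkfD_sigma (d : (ZMod M)ˣ) (σ : GQ) (z : (↥(laurentBaseChange Kbar (tgOneQ M)))ˣ) :
    tgkfD M G iso hker d (tgSig (tgOneQ M) σ z)
      = tgSig (tgOneQ M) σ (tgkfD M G iso hker d z) := by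
  -- `iso (D y) = ρ(γ_d⁻¹) (iso y)`
  have hD : ∀ y : (↥(laurentBaseChange Kbar (tgOneQ M)))ˣ,
      ((iso ((tgkfD M G iso hker d y : (↥(laurentBaseChange Kbar (tgOneQ M)))ˣ) :
        ↥(laurentBaseChange Kbar (tgOneQ M))) :
        ↥(IntermediateField.fixedField ((Gamma1 M).map (tgxRep G)))) : TgxField G)
      = tgxRep G (dshGammaU M d)⁻¹ ((iso (y : ↥(laurentBaseChange Kbar (tgOneQ M))) :
        ↥(IntermediateField.fixedField ((Gamma1 M).map (tgxRep G)))) : TgxField G) := by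
    intro y
    apply tgxToMer_injective G
    have h1 := tgkfFn_tgkfD M G iso hker d y
    rw [tgkfFn_apply, tgkfFn_apply, tdmCosetSys.prodFn_apply, Fintype.prod_unique] at h1
    rw [h1, tgxToMer_rep, inv_inv]
    exact tgkf_compInt_SL _ _ _
  have hγ : (dshGammaU M d)⁻¹ ∈ Gamma0 M := (Gamma0 M).inv_mem (dshGammaU_mem M d)
  apply Units.ext
  apply iso.injective
  apply Subtype.ext
  rw [hD (tgSig (tgOneQ M) σ z)]
  have h3 := tgkf_rep_sigma M G iso iso_ql hζ Gal hemb hγ σ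
    (z : ↥(laurentBaseChange Kbar (tgOneQ M)))
    ((tgkfD M G iso hker d z : (↥(laurentBaseChange Kbar (tgOneQ M)))ˣ) :
      ↥(laurentBaseChange Kbar (tgOneQ M))) (hD z)
  rw [tgSig_val, tgSig_val]
  exact h3.symm

/-! ### The Eichler–Shimura relation on functions -/

include iso_ql hζ hemb in
/-- **K3 for `Γ₁(M)`** (`hrel` of `TgdDescent.gal_frob`): `σ²y · (⟨l⟩ y)^l = T_l(σ y) · t^m` for a
Frobenius element `σ` at `A | l`, `l ∤ M` -/
theorem tgkf_hrel {m : ℕ} {A : ValuationSubring Kbar} (hK : TgkK12 (tgOneQ M) m A)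
    (hnorm : TgkNormal (tgOneQ M) A) (hm : m ≠ 0) {l : ℕ} [NeZero l] (hl : l.Prime)
    (hlM : ¬ l ∣ M) (hA : A.LiesOverPrime l) {σ : GQ} (hσ : A.IsFrobeniusAt σ l)
    {y : (↥(laurentBaseChange Kbar (tgOneQ M)))ˣ} (hy : y ∈ tgWsub Kbar (tgOneQ M) m)
    (hT : tgkfT M G iso hker hl hlM (tgSig (tgOneQ M) σ y) ∈ tgWsub Kbar (tgOneQ M) m)
    (hD : tgkfD M G iso hker (dshUnit M hl hlM) y ∈ tgWsub Kbar (tgOneQ M) m) :
    ∃ t : (↥(laurentBaseChange Kbar (tgOneQ M)))ˣ,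
      tgSig (tgOneQ M) σ (tgSig (tgOneQ M) σ y) * tgkfD M G iso hker (dshUnit M hl hlM) y ^ l
        = tgkfT M G iso hker hl hlM (tgSig (tgOneQ M) σ y) * t ^ m :=
  tgk_K3_frob hK hnorm hm hl hA hσ (tgkfT M G iso hker hl hlM)
    (tgkfD M G iso hker (dshUnit M hl hlM))
    (fun ζ' hζ' z => tgkf_hTD_units M G iso iso_ql hker hl hlM ζ' hζ' z)
    (fun z => tgkfD_sigma M G iso iso_ql hker hζ Gal hemb _ σ z) hy hT hD

end Fermat.Agent.T1G
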