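/-
T1G TG-KRON part C (helper7), step 10: the functional Hecke operators `T_l` (`l ∤ M`), `U_r`
(`r ∣ M`) and `⟨d⟩` on the function field of `Γ₁(M)` **commute with the Galois action** of `G_ℚ`
(coefficientwise on `q`-expansions): the inputs `hcomm` of `TgdDescent.gal_comm` (H1).
Proof: the `q`-expansion identities `(T z)(q^l) = (⟨l⟩ z)(q^{l²}) ∏_b z(ζ^b q)` and
`(U z)(q^r) = ∏_b z(ζ^b q)` hold for EVERY primitive root `ζ`, and `⟨d⟩ σ = σ ⟨d⟩`.
-/
import Mathlib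
import Fermat.Agent.Lib.T1G.Kron.Final

set_option autoImplicit false
set_option linter.unusedSectionVars false
set_option linter.style.haveILetI false
set_option linter.unusedVariables false

namespace Fermat.Agent.T1G

open Fermat.Agent.S24Lib Fermat.Agent.T1 ModularCurve Fermat.Agent.DS
open UpperHalfPlane Matrix MatrixGroups CongruenceSubgroup

local notation "Kbar" => AlgebraicClosure ℚ
local notation "GQ" => (AlgebraicClosure ℚ ≃ₐ[ℚ] AlgebraicClosure ℚ)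

/-- coefficientwise `σ` on a product of twists -/
theorem tgkf_coeffMap_prod_tw {R S : Type*} [CommRing R] [CommRing S] (π : R →+* S) (ζ : Rˣ)
    (l : ℕ) (y : LaurentSeries R) :
    coeffMap π (∏ b ∈ Finset.range l, tkrTw (ζ ^ b) y)
      = ∏ b ∈ Finset.range l, tkrTw (Units.map (π : R →* S) ζ ^ b) (coeffMap π y) := by
  rw [map_prod]
  refine Finset.prod_congr rfl (fun b _ => ?_)
  rw [coeffMap_tkrTw, map_pow]

variable (M : ℕ) [NeZero M] (G : TgxGens Kbar M)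
  (iso : ↥(laurentBaseChange Kbar (tgOneQ M)) ≃ₐ[Kbar]
    ↥(IntermediateField.fixedField ((Gamma1 M).map (tgxRep G))))
  (iso_ql : ∀ y : ↥(laurentBaseChange Kbar (tgOneQ M)),
    tgxFieldQL G ((iso y : ↥(IntermediateField.fixedField ((Gamma1 M).map (tgxRep G)))) :
      TgxField G) = qExpand ℂ M (coeffMap (algebraMap Kbar ℂ) (y : LaurentSeries Kbar)))
  (hker : ∀ γ : SL(2, ℤ), tgxRep G γ = 1 → γ ∈ Gamma1 M ∨ -γ ∈ Gamma1 M)

/-! ### The operator `U_r` -/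

/-- the functional Hecke operator `U_r`, `r ∣ M` -/
noncomputable def tgkfU {r : ℕ} [NeZero r] (hrM : r ∣ M) :
    (↥(laurentBaseChange Kbar (tgOneQ M)))ˣ → (↥(laurentBaseChange Kbar (tgOneQ M)))ˣ :=
  tgkfOpU G (Gamma1 M) (tgOneQ M) iso hker r (tgmSysU M hrM (NeZero.ne r))
    (fun i => by rw [tgmSysU_rep, tdmRepU_det])

/-- **the analytic form of `U_r`** -/
theorem tgkfFn_tgkfU {r : ℕ} [NeZero r] (hrM : r ∣ M)
    (y : (↥(laurentBaseChange Kbar (tgOneQ M)))ˣ) :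
    tgkfFn G (Gamma1 M) (tgOneQ M) iso
        ((tgkfU M G iso hker hrM y : (↥(laurentBaseChange Kbar (tgOneQ M)))ˣ) :
          ↥(laurentBaseChange Kbar (tgOneQ M)))
      = (tgmSysU M hrM (NeZero.ne r)).prodFn (tgkfFn G (Gamma1 M) (tgOneQ M) iso
          (y : ↥(laurentBaseChange Kbar (tgOneQ M)))) :=
  tgkfFn_tgkfOpU _ _ _ _ _ _ _ _ y

include iso_ql in
/-- **the `q`-expansion identity for `U_r`** -/
theorem tgkf_hU_units {r : ℕ} [NeZero r] (hrM : r ∣ M) (ζ : Kbarˣ)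
    (hζ : IsPrimitiveRoot (ζ : Kbar) r) (z : (↥(laurentBaseChange Kbar (tgOneQ M)))ˣ) :
    qExpand Kbar r (((tgkfU M G iso hker hrM z : (↥(laurentBaseChange Kbar (tgOneQ M)))ˣ) :
        ↥(laurentBaseChange Kbar (tgOneQ M))) : LaurentSeries Kbar)
      = ∏ b ∈ Finset.range r, tkrTw (ζ ^ b)
            (((z : (↥(laurentBaseChange Kbar (tgOneQ M)))ˣ) :
              ↥(laurentBaseChange Kbar (tgOneQ M))) : LaurentSeries Kbar) := by
  refine tgkq_hecke_U G r hζ _ _ _ _ (iso_ql z) (iso_ql _) ?_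
  have h1 := tgkfFn_tgkfU M G iso hker hrM z
  rw [tgkfFn_apply, tgkfFn_apply, tdmCosetSys.prodFn_apply] at h1
  exact h1

include iso_ql in
/-- **`U_r σ = σ U_r`** on functions -/
theorem tgkfU_sigma {r : ℕ} [NeZero r] (hrM : r ∣ M) (σ : GQ)
    (z : (↥(laurentBaseChange Kbar (tgOneQ M)))ˣ) :
    tgkfU M G iso hker hrM (tgSig (tgOneQ M) σ z)
      = tgSig (tgOneQ M) σ (tgkfU M G iso hker hrM z) := by
  obtain ⟨ζ, hζ⟩ := HasEnoughRootsOfUnity.exists_primitiveRoot Kbar r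
  have hζ0 : ζ ≠ 0 := hζ.ne_zero (NeZero.ne r)
  set ζu : Kbarˣ := Units.mk0 ζ hζ0 with hζu
  have hζ1 : IsPrimitiveRoot ((ζu : Kbarˣ) : Kbar) r := hζ
  have hζ2 : IsPrimitiveRoot ((Units.map ((σ : Kbar →+* Kbar) : Kbar →* Kbar) ζu : Kbarˣ) : Kbar)
      r := hζ.map_of_injective (σ : Kbar →+* Kbar).injective
  apply Units.ext
  apply Subtype.ext
  apply qExpand_injective (R := Kbar) r
  rw [tgkf_hU_units M G iso iso_ql hker hrM _ hζ2 (tgSig (tgOneQ M) σ z), tgSig_val, tgSig_val]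
  show _ = qExpand Kbar r (coeffMap (σ : Kbar →+* Kbar) _)
  rw [← coeffMap_qExpand, tgkf_hU_units M G iso iso_ql hker hrM ζu hζ1 z, tgkf_coeffMap_prod_tw]
  rfl

/-! ### The operator `T_l` -/

variable {ζ : Kbarˣ} (hζ : IsPrimitiveRoot ζ M) (Gal : TgGalois Kbar M ζ)
  (hemb : ∀ γ ∈ Gamma0 M, ∀ (y : ↥(laurentBaseChange Kbar (tgOneQ M)))
    (hy : (y : LaurentSeries Kbar) ∈ TgOne Kbar M ζ),
    tgxFieldQk G (tgxRep G γ
      ((iso y : ↥(IntermediateField.fixedField ((Gamma1 M).map (tgxRep G)))) : TgxField G))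
      = Gal.tgEmb γ ⟨(y : LaurentSeries Kbar), hy⟩)

include iso_ql hζ hemb in
/-- **`T_l σ = σ T_l`** on functions -/
theorem tgkfT_sigma {l : ℕ} [NeZero l] (hl : l.Prime) (hlM : ¬ l ∣ M) (σ : GQ)
    (z : (↥(laurentBaseChange Kbar (tgOneQ M)))ˣ) :
    tgkfT M G iso hker hl hlM (tgSig (tgOneQ M) σ z)
      = tgSig (tgOneQ M) σ (tgkfT M G iso hker hl hlM z) := by
  obtain ⟨ξ, hξ⟩ := HasEnoughRootsOfUnity.exists_primitiveRoot Kbar l
  have hξ0 : ξ ≠ 0 := hξ.ne_zero (NeZero.ne l)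
  set ξu : Kbarˣ := Units.mk0 ξ hξ0 with hξu
  have hξ1 : IsPrimitiveRoot ((ξu : Kbarˣ) : Kbar) l := hξ
  have hξ2 : IsPrimitiveRoot ((Units.map ((σ : Kbar →+* Kbar) : Kbar →* Kbar) ξu : Kbarˣ) : Kbar)
      l := hξ.map_of_injective (σ : Kbar →+* Kbar).injective
  apply Units.ext
  apply Subtype.ext
  apply qExpand_injective (R := Kbar) l
  rw [tgkf_hTD_units M G iso iso_ql hker hl hlM _ hξ2 (tgSig (tgOneQ M) σ z),
    tgkfD_sigma M G iso iso_ql hker hζ Gal hemb, tgSig_val, tgSig_val, tgSig_val]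
  show _ = qExpand Kbar l (coeffMap (σ : Kbar →+* Kbar) _)
  rw [← coeffMap_qExpand, tgkf_hTD_units M G iso iso_ql hker hl hlM ξu hξ1 z, map_mul,
    tgkf_coeffMap_prod_tw, coeffMap_qExpand]
  rfl

end Fermat.Agent.T1G
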