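/-
T1G TG-KRON part C (helper7), step 8: the results of `Kron/Final.lean` for a
`Mo : TgdModel ℚ̄ (Γ₁(M)) M (tgOneQ M)` (helper3's structure), in terms of `Mo.dict.fn`:
the inputs `Tf`, `Df`, `hTf`, `hDf`, `hrel` of `TgdDescent.gal_frob`.
-/
import Mathlib
import Fermat.Agent.Lib.T1G.Kron.Final
import Fermat.Agent.Lib.T1G.Dict.DictBwd

set_option autoImplicit false
set_option linter.unusedSectionVars false
set_option linter.style.haveILetI false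
set_option linter.unusedVariables false

namespace Fermat.Agent.T1G

open Fermat.Agent.S24Lib Fermat.Agent.T1 ModularCurve Fermat.Agent.DS
open UpperHalfPlane Matrix MatrixGroups CongruenceSubgroup

local notation "Kbar" => AlgebraicClosure ℚ
local notation "GQ" => (AlgebraicClosure ℚ ≃ₐ[ℚ] AlgebraicClosure ℚ)

variable (M : ℕ) [NeZero M] (Mo : TgdModel Kbar (Gamma1 M) M (tgOneQ M))

theorem tgkm_fn_eq (y : ↥(laurentBaseChange Kbar (tgOneQ M))) :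
    Mo.dict.fn y = tgkfFn Mo.G (Gamma1 M) (tgOneQ M) Mo.iso y := rfl

/-- the functional Hecke operator `T_l` of the model -/
noncomputable def tgkmT {l : ℕ} [NeZero l] (hl : l.Prime) (hlM : ¬ l ∣ M) :
    (↥(laurentBaseChange Kbar (tgOneQ M)))ˣ → (↥(laurentBaseChange Kbar (tgOneQ M)))ˣ :=
  tgkfT M Mo.G Mo.iso Mo.ker_le hl hlM

/-- the functional diamond operator `⟨d⟩` of the model -/
noncomputable def tgkmD (d : (ZMod M)ˣ) :
    (↥(laurentBaseChange Kbar (tgOneQ M)))ˣ → (↥(laurentBaseChange Kbar (tgOneQ M)))ˣ :=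
  tgkfD M Mo.G Mo.iso Mo.ker_le d

/-- `hTf` of `TgdDescent.gal_frob` -/
theorem tgkm_fn_T {l : ℕ} [NeZero l] (hl : l.Prime) (hlM : ¬ l ∣ M)
    (y : (↥(laurentBaseChange Kbar (tgOneQ M)))ˣ) :
    Mo.dict.fn ((tgkmT M Mo hl hlM y : (↥(laurentBaseChange Kbar (tgOneQ M)))ˣ) :
        ↥(laurentBaseChange Kbar (tgOneQ M)))
      = (tgmSysT M hl hlM).prodFn (Mo.dict.fn (y : ↥(laurentBaseChange Kbar (tgOneQ M)))) :=
  tgkfFn_tgkfT M Mo.G Mo.iso Mo.ker_le hl hlM y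

/-- `hDf` of `TgdDescent.gal_frob` -/
theorem tgkm_fn_D (d : (ZMod M)ˣ) (y : (↥(laurentBaseChange Kbar (tgOneQ M)))ˣ) :
    Mo.dict.fn ((tgkmD M Mo d y : (↥(laurentBaseChange Kbar (tgOneQ M)))ˣ) :
        ↥(laurentBaseChange Kbar (tgOneQ M)))
      = (tgmSysD M d).prodFn (Mo.dict.fn (y : ↥(laurentBaseChange Kbar (tgOneQ M)))) :=
  tgkfFn_tgkfD M Mo.G Mo.iso Mo.ker_le d y

/-- `hrel` of `TgdDescent.gal_frob` (for `m = p ^ k`) -/
theorem tgkm_hrel {ζ : Kbarˣ} (hζ : IsPrimitiveRoot ζ M) (Gal : TgGalois Kbar M ζ)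
    (hemb : ∀ γ ∈ Gamma0 M, ∀ (y : ↥(laurentBaseChange Kbar (tgOneQ M)))
      (hy : (y : LaurentSeries Kbar) ∈ TgOne Kbar M ζ),
      tgxFieldQk Mo.G (tgxRep Mo.G γ (Mo.toF y)) = Gal.tgEmb γ ⟨(y : LaurentSeries Kbar), hy⟩)
    {m : ℕ} {A : ValuationSubring Kbar} (hK : TgkK12 (tgOneQ M) m A)
    (hnorm : TgkNormal (tgOneQ M) A) (hm : m ≠ 0) {l : ℕ} [NeZero l] (hl : l.Prime)
    (hlM : ¬ l ∣ M) (hA : A.LiesOverPrime l) {σ : GQ} (hσ : A.IsFrobeniusAt σ l)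
    {y : (↥(laurentBaseChange Kbar (tgOneQ M)))ˣ} (hy : y ∈ tgWsub Kbar (tgOneQ M) m)
    (hT : tgkmT M Mo hl hlM (tgSig (tgOneQ M) σ y) ∈ tgWsub Kbar (tgOneQ M) m)
    (hD : tgkmD M Mo (dshUnit M hl hlM) y ∈ tgWsub Kbar (tgOneQ M) m) :
    ∃ t : (↥(laurentBaseChange Kbar (tgOneQ M)))ˣ,
      tgSig (tgOneQ M) σ (tgSig (tgOneQ M) σ y) * tgkmD M Mo (dshUnit M hl hlM) y ^ l
        = tgkmT M Mo hl hlM (tgSig (tgOneQ M) σ y) * t ^ m :=
  tgkf_hrel M Mo.G Mo.iso Mo.iso_ql Mo.ker_le hζ Gal hemb hK hnorm hm hl hlM hA hσ hy hT hD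

end Fermat.Agent.T1G
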