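/-
T1G TG-KRON part C (helper7), step 9: the results of `Kron/Model.lean` for helper1's analytic
model `tgdModelOne ℚ̄ M hM` of the function field of `Γ₁(M)` and the Galois package
`tgGalois_an ℚ̄ M`: the compatibility `hemb` holds, so `hrel` of `TgdDescent.gal_frob` only needs
the arithmetic inputs `TgkK12`, `TgkNormal` (TG-LEVEL).
-/
import Mathlib
import Fermat.Agent.Lib.T1G.Kron.Model
import Fermat.Agent.Lib.T1G.GMod.ModelOne

set_option autoImplicit false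
set_option linter.unusedSectionVars false
set_option linter.style.haveILetI false
set_option linter.unusedVariables false

namespace Fermat.Agent.T1G

open Fermat.Agent.S24Lib Fermat.Agent.T1 ModularCurve Fermat.Agent.DS
open UpperHalfPlane Matrix MatrixGroups CongruenceSubgroup
attribute [local instance] KMod.charZero_k

section Generic

variable (𝕜 : Type) [Field 𝕜] [IsAlgClosed 𝕜] [Algebra 𝕜 ℂ] [Algebra ℚ 𝕜] (M : ℕ) [NeZero M]

/-- `tgxOneHom` through the comparison isomorphism is `ι_M` -/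
theorem tgkm_tgxFullIso_tgxOneHom (y : ↥(laurentBaseChange 𝕜 (tgOneQ M)))
    (hy : (y : LaurentSeries 𝕜) ∈ TgOne 𝕜 M (tgxZeta 𝕜 M)) :
    tgxFullIso 𝕜 M (tgxOneHom 𝕜 M y)
      = tgOneIncl 𝕜 M (tgxZeta 𝕜 M) ⟨(y : LaurentSeries 𝕜), hy⟩ :=
  Subtype.ext (tgxFullIso_tgxOneHom 𝕜 M y)

/-- **the compatibility of the analytic model with the Galois package** (for every `γ`) -/
theorem tgkm_emb (hM : 6 ≤ M) (γ : SL(2, ℤ)) (y : ↥(laurentBaseChange 𝕜 (tgOneQ M)))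
    (hy : (y : LaurentSeries 𝕜) ∈ TgOne 𝕜 M (tgxZeta 𝕜 M)) :
    tgxFieldQk (tgdModelOne 𝕜 M hM).G
        (tgxRep (tgdModelOne 𝕜 M hM).G γ ((tgdModelOne 𝕜 M hM).toF y))
      = (tgGalois_an 𝕜 M).tgEmb γ ⟨(y : LaurentSeries 𝕜), hy⟩ := by
  show tgxFieldQk (tgxFull 𝕜 M) (tgxRep (tgxFull 𝕜 M) γ (tgxOneHom 𝕜 M y)) = _
  rw [← coe_tgxFullIso, ← tgxFullRho_iso, tgkm_tgxFullIso_tgxOneHom 𝕜 M y hy]
  rfl

end Generic

local notation "Kbar" => AlgebraicClosure ℚ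
local notation "GQ" => (AlgebraicClosure ℚ ≃ₐ[ℚ] AlgebraicClosure ℚ)

variable (M : ℕ) [NeZero M] (hM : 6 ≤ M)

/-- **`hrel` of `TgdDescent.gal_frob`** for the analytic model of `Γ₁(M)` over `ℚ̄` -/
theorem tgkm_hrel_one {m : ℕ} {A : ValuationSubring Kbar} (hK : TgkK12 (tgOneQ M) m A)
    (hnorm : TgkNormal (tgOneQ M) A) (hm : m ≠ 0) {l : ℕ} [NeZero l] (hl : l.Prime)
    (hlM : ¬ l ∣ M) (hA : A.LiesOverPrime l) {σ : GQ} (hσ : A.IsFrobeniusAt σ l)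
    {y : (↥(laurentBaseChange Kbar (tgOneQ M)))ˣ} (hy : y ∈ tgWsub Kbar (tgOneQ M) m)
    (hT : tgkmT M (tgdModelOne Kbar M hM) hl hlM (tgSig (tgOneQ M) σ y)
      ∈ tgWsub Kbar (tgOneQ M) m)
    (hD : tgkmD M (tgdModelOne Kbar M hM) (dshUnit M hl hlM) y ∈ tgWsub Kbar (tgOneQ M) m) :
    ∃ t : (↥(laurentBaseChange Kbar (tgOneQ M)))ˣ,
      tgSig (tgOneQ M) σ (tgSig (tgOneQ M) σ y)
          * tgkmD M (tgdModelOne Kbar M hM) (dshUnit M hl hlM) y ^ l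
        = tgkmT M (tgdModelOne Kbar M hM) hl hlM (tgSig (tgOneQ M) σ y) * t ^ m :=
  tgkm_hrel M (tgdModelOne Kbar M hM) (tgxZeta_isPrimitiveRoot Kbar M) (tgGalois_an Kbar M)
    (fun γ _ y hy => tgkm_emb Kbar M hM γ y hy) hK hnorm hm hl hlM hA hσ hy hT hD

end Fermat.Agent.T1G
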