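/-
T1G TG-KRON part C (helper7), step 11: Galois equivariance of the functional Hecke operators
`T_l`, `U_r`, `⟨d⟩` of a `Mo : TgdModel ℚ̄ (Γ₁(M)) M (tgOneQ M)` (the inputs `hcomm` of
`TgdDescent.gal_comm`), and for helper1's analytic model `tgdModelOne ℚ̄ M hM` unconditionally.
-/
import Mathlib
import Fermat.Agent.Lib.T1G.Kron.HeckeSig
import Fermat.Agent.Lib.T1G.Kron.ModelOne

set_option autoImplicit false
set_option linter.unusedSectionVars false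
set_option linter.style.haveILetI false
set_option linter.unusedVariables false

namespace Fermat.Agent.T1G

open Fermat.Agent.S24Lib Fermat.Agent.T1 ModularCurve Fermat.Agent.DS
open UpperHalfPlane Matrix MatrixGroups CongruenceSubgroup

local notation "Kbar" => AlgebraicClosure ℚ
local notation "GQ" => (AlgebraicClosure ℚ ≃ₐ[ℚ] AlgebraicClosure ℚ)

variable (M : ℕ) [NeZero M] (Mo : TgdModel Kbar (Gamma1 M) M (tgOneQ M))

/-- the functional Hecke operator `U_r` of the model -/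
noncomputable def tgkmU {r : ℕ} [NeZero r] (hrM : r ∣ M) :
    (↥(laurentBaseChange Kbar (tgOneQ M)))ˣ → (↥(laurentBaseChange Kbar (tgOneQ M)))ˣ :=
  tgkfU M Mo.G Mo.iso Mo.ker_le hrM

/-- the analytic form of `U_r` (`hTf` of `TgdDescent.gal_comm`) -/
theorem tgkm_fn_U {r : ℕ} [NeZero r] (hrM : r ∣ M)
    (y : (↥(laurentBaseChange Kbar (tgOneQ M)))ˣ) :
    Mo.dict.fn ((tgkmU M Mo hrM y : (↥(laurentBaseChange Kbar (tgOneQ M)))ˣ) :
        ↥(laurentBaseChange Kbar (tgOneQ M)))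
      = (tgmSysU M hrM (NeZero.ne r)).prodFn
          (Mo.dict.fn (y : ↥(laurentBaseChange Kbar (tgOneQ M)))) :=
  tgkfFn_tgkfU M Mo.G Mo.iso Mo.ker_le hrM y

/-- `U_r σ = σ U_r` -/
theorem tgkmU_sigma {r : ℕ} [NeZero r] (hrM : r ∣ M) (σ : GQ)
    (z : (↥(laurentBaseChange Kbar (tgOneQ M)))ˣ) :
    tgkmU M Mo hrM (tgSig (tgOneQ M) σ z) = tgSig (tgOneQ M) σ (tgkmU M Mo hrM z) :=
  tgkfU_sigma M Mo.G Mo.iso Mo.iso_ql Mo.ker_le hrM σ z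

section Emb

variable {ζ : Kbarˣ} (hζ : IsPrimitiveRoot ζ M) (Gal : TgGalois Kbar M ζ)
  (hemb : ∀ γ ∈ Gamma0 M, ∀ (y : ↥(laurentBaseChange Kbar (tgOneQ M)))
    (hy : (y : LaurentSeries Kbar) ∈ TgOne Kbar M ζ),
    tgxFieldQk Mo.G (tgxRep Mo.G γ (Mo.toF y)) = Gal.tgEmb γ ⟨(y : LaurentSeries Kbar), hy⟩)

include hζ hemb in
/-- `⟨d⟩ σ = σ ⟨d⟩` -/
theorem tgkmD_sigma (d : (ZMod M)ˣ) (σ : GQ) (z : (↥(laurentBaseChange Kbar (tgOneQ M)))ˣ) :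
    tgkmD M Mo d (tgSig (tgOneQ M) σ z) = tgSig (tgOneQ M) σ (tgkmD M Mo d z) :=
  tgkfD_sigma M Mo.G Mo.iso Mo.iso_ql Mo.ker_le hζ Gal hemb d σ z

include hζ hemb in
/-- `T_l σ = σ T_l` -/
theorem tgkmT_sigma {l : ℕ} [NeZero l] (hl : l.Prime) (hlM : ¬ l ∣ M) (σ : GQ)
    (z : (↥(laurentBaseChange Kbar (tgOneQ M)))ˣ) :
    tgkmT M Mo hl hlM (tgSig (tgOneQ M) σ z) = tgSig (tgOneQ M) σ (tgkmT M Mo hl hlM z) :=
  tgkfT_sigma M Mo.G Mo.iso Mo.iso_ql Mo.ker_le hζ Gal hemb hl hlM σ z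

end Emb

/-! ### The analytic model of `Γ₁(M)` -/

variable (hM : 6 ≤ M)

theorem tgkmD_sigma_one (d : (ZMod M)ˣ) (σ : GQ) (z : (↥(laurentBaseChange Kbar (tgOneQ M)))ˣ) :
    tgkmD M (tgdModelOne Kbar M hM) d (tgSig (tgOneQ M) σ z)
      = tgSig (tgOneQ M) σ (tgkmD M (tgdModelOne Kbar M hM) d z) :=
  tgkmD_sigma M (tgdModelOne Kbar M hM) (tgxZeta_isPrimitiveRoot Kbar M) (tgGalois_an Kbar M)
    (fun γ _ y hy => tgkm_emb Kbar M hM γ y hy) d σ z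

theorem tgkmT_sigma_one {l : ℕ} [NeZero l] (hl : l.Prime) (hlM : ¬ l ∣ M) (σ : GQ)
    (z : (↥(laurentBaseChange Kbar (tgOneQ M)))ˣ) :
    tgkmT M (tgdModelOne Kbar M hM) hl hlM (tgSig (tgOneQ M) σ z)
      = tgSig (tgOneQ M) σ (tgkmT M (tgdModelOne Kbar M hM) hl hlM z) :=
  tgkmT_sigma M (tgdModelOne Kbar M hM) (tgxZeta_isPrimitiveRoot Kbar M) (tgGalois_an Kbar M)
    (fun γ _ y hy => tgkm_emb Kbar M hM γ y hy) hl hlM σ z

end Fermat.Agent.T1G
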